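import Mathlib
import Fermat.Agent.BR3.SplitCoord

/-!
# Program C (S36), node (N1-INST), assembly, part 1 (abstract): the small parameter of the split
sheet for an EXACT gauge, and the values on the tube of the split sheet

* `small_mem_of_pow` : variant of `SplitCoord.small_mem_maximalIdeal` for a gauge `ρ` with
  `ρ ^ (n + 1) = κ` EXACTLY (in the modular situation `κ = q`, `ρ = gaugeSDD q`, `n = q`; no
  hypothesis on the thickness of `L`, no constant field): for levels `L'` of the outer sub-annulus
  with second coordinate `ρ • u⁻¹`, and `c` dividing `u` in the level of `L`, the parameter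
  `κ / c ^ (n + 1) = (ρ u⁻¹)^(n+1) (u c⁻¹)^(n+1)` lies in the maximal ideal of every level of `L'`;
* `exists_value_of_mem_coverTube` (= `hWT` of `SDD.NodeFibres.hTK_of_values`),
  `valuation_value_of_mem_coverTube_one` (`|W(P)| = 1` on the sheet `W ≡ 1`; the input `hc` of
  `SDD.TubesB.exists_value_Ug_of_unit`).
-/

set_option autoImplicit false
set_option linter.unusedSectionVars false

noncomputable section

namespace Fermat.Agent.BR3.SplitNode

open IsLocalRing AlgebraicCurve Fermat.Agent.Red Fermat.Agent.BR.S0 Fermat.Agent.BR3.SplitCoord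
  Fermat.Agent.BR3.SplitLevel
  Fermat.Agent.BR3.CoverSmooth Fermat.Agent.BR3.SplitNodeChart

attribute [local instance] NodeLevel.isLocal NodeLevel.noeth NodeLevel.intClosed

section Small

variable {K F : Type*} [Field K] [Field F] [Algebra K F] {A : ValuationSubring K}
  {T : Set (Place K F)} {ι : Type*} {L : AnnulusLevels A T ι} {T' : Set (Place K F)} {ι' : Type*}
  (L' : AnnulusLevels A T' ι') (e : ι' → ι)

/-- **The small parameter `κ / c^(n+1)` of the split sheet, for an exact gauge** `ρ^(n+1) = κ`: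
it lies in the maximal ideal of every level of the outer sub-annulus (second coordinate
`ρ • u⁻¹`) as soon as `c` divides `u` in the level of `L`. -/
theorem small_mem_of_pow (hX2 : ∀ i', (L.level (e i')).R ≤ (L'.level i').R)
    {ρ : K} (hv' : L'.v = ρ • L.u⁻¹) {n : ℕ} {κ : K} (hρ : ρ ^ (n + 1) = κ) (hu0 : L.u ≠ 0)
    (i' : ι') {c : F} (hc0 : c ≠ 0) (huc : L.u * c⁻¹ ∈ (L.level (e i')).R) :
    ∃ h : algebraMap K F κ * (c ^ (n + 1))⁻¹ ∈ (L'.level i').R,
      (⟨algebraMap K F κ * (c ^ (n + 1))⁻¹, h⟩ : (L'.level i').R) ∈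
        maximalIdeal (L'.level i').R := by
  have huc' : L.u * c⁻¹ ∈ (L'.level i').R := hX2 i' huc
  have key : algebraMap K F κ * (c ^ (n + 1))⁻¹ = L'.v ^ (n + 1) * (L.u * c⁻¹) ^ (n + 1) := by
    rw [hv', Algebra.smul_def, ← mul_pow, ← hρ, map_pow]
    have e1 : algebraMap K F ρ * L.u⁻¹ * (L.u * c⁻¹) = algebraMap K F ρ * c⁻¹ := by
      field_simp
    rw [e1, mul_pow, inv_pow]
  have hv : (⟨L'.v, (L'.level i').v_mem⟩ : (L'.level i').R) ∈ maximalIdeal (L'.level i').R :=
    vR_mem_maximalIdeal (L'.level i')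
  have hmem : algebraMap K F κ * (c ^ (n + 1))⁻¹ ∈ (L'.level i').R := by
    rw [key]
    exact (L'.level i').R.mul_mem ((L'.level i').R.pow_mem (L'.level i').v_mem _)
      ((L'.level i').R.pow_mem huc' _)
  refine ⟨hmem, ?_⟩
  have e2 : (⟨algebraMap K F κ * (c ^ (n + 1))⁻¹, hmem⟩ : (L'.level i').R) =
      ⟨L'.v, (L'.level i').v_mem⟩ ^ (n + 1) * ⟨L.u * c⁻¹, huc'⟩ ^ (n + 1) :=
    Subtype.ext key
  rw [e2]
  refine Ideal.mul_mem_right _ _ ?_
  rw [pow_succ]
  exact Ideal.mul_mem_left _ _ hv

end Small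

section Values

variable {K F' F'' : Type*} [Field K] [Field F'] [Field F''] [Algebra K F'] [Algebra K F'']
  [Algebra F' F''] [IsScalarTower K F' F''] [Algebra.IsIntegral F' F'']
  {A : ValuationSubring K} {T' : Set (Place K F')} {W : F''} {c₀ : A}

/-- the value of the generator on the tube of the split sheet (`hWT` of
`SDD.NodeFibres.hTK_of_values`) -/
theorem exists_value_of_mem_coverTube {P : Place K F''} (hP : P ∈ coverTube A T' W c₀) :
    ∃ d : K, IsValueAt P W d ∧ A.valuation (d - (c₀ : K)) < 1 := hP.2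

/-- the places of the tube of the split sheet lie over the tube of the base -/
theorem restrict_mem_of_mem_coverTube {P : Place K F''} (hP : P ∈ coverTube A T' W c₀) :
    P.restrict F' ∈ T' := hP.1

/-- on the sheet `W ≡ 1` the generator has a value of absolute value one -/
theorem exists_value_one_of_mem_coverTube {P : Place K F''}
    (hP : P ∈ coverTube A T' W (1 : A)) :
    ∃ d : K, IsValueAt P W d ∧ A.valuation d = 1 := by
  obtain ⟨d, hd, hlt⟩ := hP.2
  refine ⟨d, hd, ?_⟩
  have h1 : d = (d - ((1 : A) : K)) + 1 := by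
    rw [show ((1 : A) : K) = 1 from rfl]
    ring
  rw [h1, Valuation.map_add_eq_of_lt_right, map_one]
  rw [map_one]
  exact hlt

end Values

end Fermat.Agent.BR3.SplitNode
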