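import Mathlib
import Fermat.Agent.BR3.SplitNodeChart
import Fermat.Agent.BR3.SDD.AnnSheetsHoriz
import Fermat.Agent.BR3.SplitNode.Small

/-!
# Program C (S36), nodes (N1-INST) / (N2-TWO) / (N3-INST), assembly, part 4 (abstract): the data of
ONE node of `S''` from a split sheet over a node of the base

Generic in the constant `c₀` of the sheet (`W ≡ c₀`) and in the algebra `F → F₂`.

* `NodeOut A π O₁ res₁ Q₁ O₂ res₂ Q₂ T ι` : the bundle of what `SDD.Partition.CaseCircle.ofRaw`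
  (fields `LT`, `T₁`, `T₂`, `T_v_src`, `T_u_tgt`, `T_unif₁`, `T_unif₂`, resp. `LK …`, `LW …`) and
  `Partition.caseInputOfRaw` (the node chart `chT` / `chK` / `chW`) consume for ONE node: levels of
  the tube, the branch data on the two components, `v ≡ 0` on the first, `u ≡ 0` on the second,
  uniformizers at the two branches;
* `NodeOut.chart` : the node chart of the bundle (`SplitNodeChart.nodeChartOfComps`);
* `NodeOut.ofSplit H X₁ X₂ Hc₁ Hc₂ …` : **the bundle of the split sheet `W ≡ c₀`** over a node of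
  the base with levels `L`, from `H : SheetHyp L W c₀`, the branch data `X₁ X₂` of `L` and the two
  `SplitBranch.CoverComp`; coordinates `(algebraMap u, algebraMap v)`, thickness `L.thick`
  (`ofSplit_u`, `ofSplit_v`, `ofSplit_thick`, `ofSplit_R`), tube `coverTube A T W c₀`;
  `ofSplit_chart` : its chart is `SplitNodeChart.splitNodeChart`;
* `NodeOut.ofSplitData` : the same from `X : BranchDataN S₀ n L` (a node `n` of a semistable setup).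
-/

set_option autoImplicit false
set_option linter.unusedSectionVars false
set_option linter.style.haveILetI false

noncomputable section

namespace Fermat.Agent.BR3.SplitNode

open IsLocalRing AlgebraicCurve Fermat.Agent.Red Fermat.Agent.BR.Centre
  Fermat.Agent.BR.S0 Fermat.Agent.BR3.EtaleLocal
  Fermat.Agent.BR3.SplitLevel Fermat.Agent.BR3.SplitLevels Fermat.Agent.BR3.SplitBranch
  Fermat.Agent.BR3.SplitNodeChart Fermat.Agent.BR3.CoverSmooth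

attribute [local instance] NodeLevel.isLocal NodeLevel.noeth NodeLevel.intClosed

section Bundle

variable {K F k : Type*} [Field K] [Field F] [Field k] [Algebra K F]
  {Ft₁ Ft₂ : Type*} [Field Ft₁] [Algebra k Ft₁] [Field Ft₂] [Algebra k Ft₂]

/-- **The data of one node of a model from a family of levels of its tube**: what
`SDD.Partition.CaseCircle.ofRaw` and `Partition.caseInputOfRaw` consume for one node. -/
structure NodeOut (A : ValuationSubring K) (π : A →+* k) (O₁ : ValuationSubring F)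
    (res₁ : O₁ →+* Ft₁) (Q₁ : Place k Ft₁) (O₂ : ValuationSubring F) (res₂ : O₂ →+* Ft₂)
    (Q₂ : Place k Ft₂) (T : Set (Place K F)) (ι : Type*) where
  /-- the levels of the tube of the node -/
  L : AnnulusLevels A T ι
  /-- the branch data on the first component -/
  X₁ : BranchComp π O₁ res₁ Q₁ L
  /-- the branch data on the second component -/
  X₂ : BranchComp π O₂ res₂ Q₂ L
  v_src : L.v ∈ O₁.nonunits
  u_tgt : L.u ∈ O₂.nonunits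
  unif₁ : ∃ i, ∃ t : (L.level i).R, Q₁.ord (res₁ ⟨t, X₁.le i t t.2⟩) = 1
  unif₂ : ∃ i, ∃ t : (L.level i).R, Q₂.ord (res₂ ⟨t, X₂.le i t t.2⟩) = 1

variable {A : ValuationSubring K} {π : A →+* k} {O₁ O₂ : ValuationSubring F}
  {res₁ : O₁ →+* Ft₁} {res₂ : O₂ →+* Ft₂} {Q₁ : Place k Ft₁} {Q₂ : Place k Ft₂}
  {T : Set (Place K F)} {ι : Type*}

/-- the coordinate `u` does not vanish identically on the first component -/
theorem NodeOut.u_notMem (N : NodeOut A π O₁ res₁ Q₁ O₂ res₂ Q₂ T ι)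
    (hπ0 : ∀ a : A, A.valuation (a : K) < 1 → π a = 0)
    (hres0₁ : ∀ x : O₁, (x : F) ∈ O₁.nonunits → res₁ x = 0) : N.L.u ∉ O₁.nonunits :=
  u_notMem_nonunits_of_unif N.X₁ hres0₁ hπ0 N.v_src N.unif₁

/-- the coordinate `v` does not vanish identically on the second component -/
theorem NodeOut.v_notMem (N : NodeOut A π O₁ res₁ Q₁ O₂ res₂ Q₂ T ι)
    (hπ0 : ∀ a : A, A.valuation (a : K) < 1 → π a = 0)
    (hres0₂ : ∀ x : O₂, (x : F) ∈ O₂.nonunits → res₂ x = 0) : N.L.v ∉ O₂.nonunits :=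
  v_notMem_nonunits_of_unif N.X₂ hres0₂ hπ0 N.u_tgt N.unif₂

/-- **the node chart of the bundle** -/
def NodeOut.chart (N : NodeOut A π O₁ res₁ Q₁ O₂ res₂ Q₂ T ι)
    (hπ0 : ∀ a : A, A.valuation (a : K) < 1 → π a = 0)
    (hres0₁ : ∀ x : O₁, (x : F) ∈ O₁.nonunits → res₁ x = 0)
    (hres0₂ : ∀ x : O₂, (x : F) ∈ O₂.nonunits → res₂ x = 0) :
    NodeChart A O₁ O₂ res₁ res₂ Q₁ Q₂ T :=
  nodeChartOfComps N.X₁ N.X₂ hπ0 (N.u_notMem hπ0 hres0₁) (N.v_notMem hπ0 hres0₂)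

theorem NodeOut.chart_R (N : NodeOut A π O₁ res₁ Q₁ O₂ res₂ Q₂ T ι)
    (hπ0 : ∀ a : A, A.valuation (a : K) < 1 → π a = 0)
    (hres0₁ : ∀ x : O₁, (x : F) ∈ O₁.nonunits → res₁ x = 0)
    (hres0₂ : ∀ x : O₂, (x : F) ∈ O₂.nonunits → res₂ x = 0) :
    (N.chart hπ0 hres0₁ hres0₂).R = ⨆ i, (N.L.level i).R := rfl

theorem NodeOut.mem_chart_R_iff (N : NodeOut A π O₁ res₁ Q₁ O₂ res₂ Q₂ T ι)
    (hπ0 : ∀ a : A, A.valuation (a : K) < 1 → π a = 0)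
    (hres0₁ : ∀ x : O₁, (x : F) ∈ O₁.nonunits → res₁ x = 0)
    (hres0₂ : ∀ x : O₂, (x : F) ∈ O₂.nonunits → res₂ x = 0) (y : F) :
    y ∈ (N.chart hπ0 hres0₁ hres0₂).R ↔ ∃ i, y ∈ (N.L.level i).R :=
  mem_nodeChartOfComps_R_iff N.X₁ N.X₂ hπ0 _ _ y

end Bundle

/-! ### The bundle of a split sheet -/

section Split

variable {K F F₂ k : Type*} [Field K] [Field F] [Field F₂] [Field k] [Algebra K F]
  [Algebra K F₂] [Algebra F F₂] [IsScalarTower K F F₂] [Algebra.IsIntegral F F₂] [CharZero F₂]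
  {Ft₁ Ft₂ Ft₁' Ft₂' : Type*} [Field Ft₁] [Field Ft₂] [Field Ft₁'] [Field Ft₂']
  [Algebra k Ft₁] [Algebra k Ft₂] [Algebra k Ft₁'] [Algebra k Ft₂']
  [Algebra Ft₁ Ft₁'] [Algebra Ft₂ Ft₂'] [IsScalarTower k Ft₁ Ft₁'] [IsScalarTower k Ft₂ Ft₂']
  {A : ValuationSubring K} {T : Set (Place K F)} {ι : Type*}
  {π : A →+* k} {O₁ O₂ : ValuationSubring F} {res₁ : O₁ →+* Ft₁} {res₂ : O₂ →+* Ft₂}
  {Q₁ : Place k Ft₁} {Q₂ : Place k Ft₂}
  {O₁' O₂' : ValuationSubring F₂} {res₁' : O₁' →+* Ft₁'} {res₂' : O₂' →+* Ft₂'}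
  {Q₁' : Place k Ft₁'} {Q₂' : Place k Ft₂'}
  {L : AnnulusLevels A T ι} {W : F₂} {c₀ : A}

/-- **The data of the node of the split sheet `W ≡ c₀` over a node of the base**: levels
`SheetHyp.levels`, branch data from the two `CoverComp`. -/
def NodeOut.ofSplit (H : SheetHyp L W c₀)
    (X₁ : BranchComp π O₁ res₁ Q₁ L) (X₂ : BranchComp π O₂ res₂ Q₂ L)
    (Hc₁ : CoverComp π O₁ res₁ Q₁ O₁' res₁' Q₁' W c₀)
    (Hc₂ : CoverComp π O₂ res₂ Q₂ O₂' res₂' Q₂' W c₀)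
    (hres0₁ : ∀ x : O₁, (x : F) ∈ O₁.nonunits → res₁ x = 0)
    (hres0₂ : ∀ x : O₂, (x : F) ∈ O₂.nonunits → res₂ x = 0)
    (hv₁ : L.v ∈ O₁.nonunits) (hu₂ : L.u ∈ O₂.nonunits)
    (hord₁ : ∀ g : Ft₁, Q₁'.ord (algebraMap Ft₁ Ft₁' g) = Q₁.ord g)
    (hord₂ : ∀ g : Ft₂, Q₂'.ord (algebraMap Ft₂ Ft₂' g) = Q₂.ord g)
    (unif₁ : ∃ i, ∃ t : (L.level i).R, Q₁.ord (res₁ ⟨t, X₁.le i t t.2⟩) = 1)
    (unif₂ : ∃ i, ∃ t : (L.level i).R, Q₂.ord (res₂ ⟨t, X₂.le i t t.2⟩) = 1) :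
    NodeOut A π O₁' res₁' Q₁' O₂' res₂' Q₂' (coverTube A T W c₀) ι where
  L := H.levels
  X₁ := Hc₁.branchComp X₁ H
  X₂ := Hc₂.branchComp X₂ H
  v_src := Hc₁.nonunits_map hres0₁ hv₁
  u_tgt := Hc₂.nonunits_map hres0₂ hu₂
  unif₁ := Hc₁.unif X₁ H hord₁ unif₁
  unif₂ := Hc₂.unif X₂ H hord₂ unif₂

section Lemmas

variable (H : SheetHyp L W c₀)
  (X₁ : BranchComp π O₁ res₁ Q₁ L) (X₂ : BranchComp π O₂ res₂ Q₂ L)
  (Hc₁ : CoverComp π O₁ res₁ Q₁ O₁' res₁' Q₁' W c₀)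
  (Hc₂ : CoverComp π O₂ res₂ Q₂ O₂' res₂' Q₂' W c₀)
  (hres0₁ : ∀ x : O₁, (x : F) ∈ O₁.nonunits → res₁ x = 0)
  (hres0₂ : ∀ x : O₂, (x : F) ∈ O₂.nonunits → res₂ x = 0)
  (hv₁ : L.v ∈ O₁.nonunits) (hu₂ : L.u ∈ O₂.nonunits)
  (hord₁ : ∀ g : Ft₁, Q₁'.ord (algebraMap Ft₁ Ft₁' g) = Q₁.ord g)
  (hord₂ : ∀ g : Ft₂, Q₂'.ord (algebraMap Ft₂ Ft₂' g) = Q₂.ord g)
  (unif₁ : ∃ i, ∃ t : (L.level i).R, Q₁.ord (res₁ ⟨t, X₁.le i t t.2⟩) = 1)
  (unif₂ : ∃ i, ∃ t : (L.level i).R, Q₂.ord (res₂ ⟨t, X₂.le i t t.2⟩) = 1)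

theorem NodeOut.ofSplit_L :
    (NodeOut.ofSplit H X₁ X₂ Hc₁ Hc₂ hres0₁ hres0₂ hv₁ hu₂ hord₁ hord₂ unif₁ unif₂).L =
      H.levels := rfl

theorem NodeOut.ofSplit_u :
    (NodeOut.ofSplit H X₁ X₂ Hc₁ Hc₂ hres0₁ hres0₂ hv₁ hu₂ hord₁ hord₂ unif₁ unif₂).L.u =
      algebraMap F F₂ L.u := SheetHyp.levels_u H

theorem NodeOut.ofSplit_v :
    (NodeOut.ofSplit H X₁ X₂ Hc₁ Hc₂ hres0₁ hres0₂ hv₁ hu₂ hord₁ hord₂ unif₁ unif₂).L.v =
      algebraMap F F₂ L.v := SheetHyp.levels_v H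

theorem NodeOut.ofSplit_thick :
    (NodeOut.ofSplit H X₁ X₂ Hc₁ Hc₂ hres0₁ hres0₂ hv₁ hu₂ hord₁ hord₂ unif₁ unif₂).L.thick =
      L.thick := SheetHyp.levels_thick H

theorem NodeOut.ofSplit_R (i : ι) :
    ((NodeOut.ofSplit H X₁ X₂ Hc₁ Hc₂ hres0₁ hres0₂ hv₁ hu₂ hord₁ hord₂ unif₁ unif₂).L.level
      i).R = H.ring i := SheetHyp.levels_R H i

/-- the chart of the bundle of the split sheet is `SplitNodeChart.splitNodeChart` -/
theorem NodeOut.ofSplit_chart (hπ0 : ∀ a : A, A.valuation (a : K) < 1 → π a = 0) :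
    (NodeOut.ofSplit H X₁ X₂ Hc₁ Hc₂ hres0₁ hres0₂ hv₁ hu₂ hord₁ hord₂ unif₁ unif₂).chart hπ0
        Hc₁.res_nonunits Hc₂.res_nonunits =
      splitNodeChart H X₁ X₂ Hc₁ Hc₂ hπ0 hres0₁ hres0₂ hv₁ hu₂ hord₁ hord₂ unif₁ unif₂ := rfl

/-- the annulus sheet of degree one of the bundle of the split sheet (helper7's
`AnnSheetsHoriz.annSheet_split`) -/
def NodeOut.ofSplit_annSheet :
    Fermat.Agent.BR3.SDD.Partition.AnnSheet A (coverTube A T W c₀) (algebraMap F F₂ L.u)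
      L.thick 1 :=
  Fermat.Agent.BR3.SDD.AnnSheetsHoriz.annSheet_split H

end Lemmas

end Split

/-! ### From the branch data of a node of a semistable setup -/

section OfData

open Fermat.Agent.BR.SS Fermat.Agent.BR.Refine Fermat.Agent.BR3.CircleN

variable {K : Type} {F F₂ : Type*} [Field K] [Field F] [Field F₂] [Algebra K F]
  [Algebra K F₂] [Algebra F F₂] [IsScalarTower K F F₂] [Algebra.IsIntegral F F₂] [CharZero F₂]
  {A : ValuationSubring K} [IsAlgClosed (ResidueField A)]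
  {ι₀ : Type} {Ft₀ : ι₀ → Type} [∀ v, Field (Ft₀ v)] [∀ v, Algebra (ResidueField A) (Ft₀ v)]
  {ν₀ : Type}
  {S₀ : SemistableSetup (F := F) A (residue A) ι₀ Ft₀ ν₀} {n : ν₀} {ι : Type*}
  {L : AnnulusLevels A (tube S₀ n) ι}
  {Ft₁' Ft₂' : Type*} [Field Ft₁'] [Field Ft₂']
  [Algebra (ResidueField A) Ft₁'] [Algebra (ResidueField A) Ft₂']
  [Algebra (Ft₀ (S₀.src n)) Ft₁'] [Algebra (Ft₀ (S₀.tgt n)) Ft₂']
  [IsScalarTower (ResidueField A) (Ft₀ (S₀.src n)) Ft₁']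
  [IsScalarTower (ResidueField A) (Ft₀ (S₀.tgt n)) Ft₂']
  {O₁' O₂' : ValuationSubring F₂} {res₁' : O₁' →+* Ft₁'} {res₂' : O₂' →+* Ft₂'}
  {Q₁' : Place (ResidueField A) Ft₁'} {Q₂' : Place (ResidueField A) Ft₂'}
  {W : F₂} {c₀ : A}

/-- **The data of the node of the split sheet over a node `n` of a semistable setup**, from the
branch data `X : BranchDataN S₀ n L` of the levels of the tube of `n`. -/
def NodeOut.ofSplitData (H : SheetHyp L W c₀) (X : BranchDataN S₀ n L)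
    (Hc₁ : CoverComp (residue A) (S₀.O (S₀.src n)) (S₀.res (S₀.src n)) (S₀.s₁ n)
      O₁' res₁' Q₁' W c₀)
    (Hc₂ : CoverComp (residue A) (S₀.O (S₀.tgt n)) (S₀.res (S₀.tgt n)) (S₀.s₂ n)
      O₂' res₂' Q₂' W c₀)
    (hord₁ : ∀ g : Ft₀ (S₀.src n), Q₁'.ord (algebraMap (Ft₀ (S₀.src n)) Ft₁' g) = (S₀.s₁ n).ord g)
    (hord₂ : ∀ g : Ft₀ (S₀.tgt n), Q₂'.ord (algebraMap (Ft₀ (S₀.tgt n)) Ft₂' g) = (S₀.s₂ n).ord g) :
    NodeOut A (residue A) O₁' res₁' Q₁' O₂' res₂' Q₂' (coverTube A (tube S₀ n) W c₀) ι :=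
  NodeOut.ofSplit H (branchComp_src X) (branchComp_tgt X) Hc₁ Hc₂
    (res_eq_zero_of_nonunits _) (res_eq_zero_of_nonunits _) X.v_src X.u_tgt hord₁ hord₂
    X.unif₁ X.unif₂

end OfData

end Fermat.Agent.BR3.SplitNode
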