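import Mathlib
import Fermat.Agent.BR3.SplitNode.Node
import Fermat.Agent.BR3.SubAnnPlaces.Branch

/-!
# Program C (S36), nodes (N1-INST) / (N3-INST), assembly, part 5 (abstract): the branch data of the
two nodes of the one-level refinement `S'ref = SRef.sref I a₀ hadm` in EXPLICIT form

The target of the outer node (resp. the source of the inner node) of `S'ref` over a node `e` of
`S₀` is the exceptional line `exc e`, with valuation ring `circleRing (I.ch e).toCore (a₀ e) _ _`,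
residue map `circleRes …` onto `k(T)` and branch `T = ∞` (resp. `T = 0`); but
`(sref I a₀ hadm).tgt (outer … e) = exc … e` is only a propositional equality, so that
`SplitNodeChart.branchComp_tgt X'` has a type that does not mention the circle ring.  Here the
transport is done once:

* `OuterBranch I a₀ hadm e L'` : the branch data of levels `L'` of the tube of the OUTER node in
  explicit form: on `(S₀.O (S₀.src e), S₀.res (S₀.src e))` at `S₀.s₁ e` and on
  `(circleRing …, circleRes …)` at `placeInfty k`; `outerBranch_of_branchDataN X'`;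
* `InnerBranch I a₀ hadm e L'` : the INNER node: on `(circleRing …, circleRes …)` at `placeAt k 0`
  and on `(S₀.O (S₀.tgt e), S₀.res (S₀.tgt e))` at `S₀.s₂ e`; `innerBranch_of_branchDataN X'`;
* `OuterBranch.nodeOut`, `InnerBranch.nodeOut` : **the data `NodeOut` of the node of the split
  sheet `W ≡ c₀` over the outer / inner node** from `H : SheetHyp L' W c₀` and the two `CoverComp`
  stated against the explicit rings.
-/

set_option autoImplicit false
set_option linter.unusedSectionVars false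
set_option linter.style.haveILetI false

noncomputable section

namespace Fermat.Agent.BR3.SplitNode

open IsLocalRing AlgebraicCurve Fermat.Agent.Red Fermat.Agent.BR.Centre
  Fermat.Agent.BR.S0 Fermat.Agent.BR.SS Fermat.Agent.BR.Refine Fermat.Agent.BR.Circle
  Fermat.Agent.BR.P1 Fermat.Agent.BR3.CircleN Fermat.Agent.BR3.SRef Fermat.Agent.BR3.SubAnnPlaces
  Fermat.Agent.BR3.SplitLevels Fermat.Agent.BR3.SplitBranch
  Fermat.Agent.BR3.SplitNodeChart Fermat.Agent.BR3.CoverSmooth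

section Ref

variable {K : Type} {F : Type*} [Field K] [Field F] [Algebra K F]
  {A : ValuationSubring K} [IsAlgClosed (ResidueField A)]
  {ι₀ : Type} {Ft₀ : ι₀ → Type} [∀ v, Field (Ft₀ v)] [∀ v, Algebra (ResidueField A) (Ft₀ v)]
  {ν₀ : Type} {S₀ : SemistableSetup (F := F) A (residue A) ι₀ Ft₀ ν₀}
  (I : CircleInputsN S₀) (a₀ : ν₀ → K) (hadm : ∀ e, I.adm e (a₀ e)) (e : ν₀) {ι' : Type*}

local notation "k" => ResidueField A

/-- **The branch data of levels of the tube of the OUTER node of `S'ref` over `e`, in explicit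
form**: source `src e` at `s₁ e`, target the circle ring at `T = ∞`. -/
structure OuterBranch (L' : AnnulusLevels A (tube (sref I a₀ hadm) (outer I a₀ hadm e)) ι') :
    Prop where
  X₁ : BranchComp (residue A) (S₀.O (S₀.src e)) (S₀.res (S₀.src e)) (S₀.s₁ e) L'
  X₂ : BranchComp (residue A) (circleRing (I.ch e).toCore (a₀ e) (hadm e).1 (hadm e).2)
    (circleRes (I.ch e).toCore (a₀ e) (hadm e).1 (hadm e).2) (placeInfty k) L'
  v_src : L'.v ∈ (S₀.O (S₀.src e)).nonunits
  u_tgt : L'.u ∈ (circleRing (I.ch e).toCore (a₀ e) (hadm e).1 (hadm e).2).nonunits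
  unif₁ : ∃ i, ∃ t : (L'.level i).R,
    (S₀.s₁ e).ord (S₀.res (S₀.src e) ⟨t, X₁.le i t t.2⟩) = 1
  unif₂ : ∃ i, ∃ t : (L'.level i).R,
    (placeInfty k).ord (circleRes (I.ch e).toCore (a₀ e) (hadm e).1 (hadm e).2
      ⟨t, X₂.le i t t.2⟩) = 1

/-- **The branch data of levels of the tube of the INNER node of `S'ref` over `e`, in explicit
form**: source the circle ring at `T = 0`, target `tgt e` at `s₂ e`. -/
structure InnerBranch (L' : AnnulusLevels A (tube (sref I a₀ hadm) (inner I a₀ hadm e)) ι') :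
    Prop where
  X₁ : BranchComp (residue A) (circleRing (I.ch e).toCore (a₀ e) (hadm e).1 (hadm e).2)
    (circleRes (I.ch e).toCore (a₀ e) (hadm e).1 (hadm e).2) (placeAt k 0) L'
  X₂ : BranchComp (residue A) (S₀.O (S₀.tgt e)) (S₀.res (S₀.tgt e)) (S₀.s₂ e) L'
  v_src : L'.v ∈ (circleRing (I.ch e).toCore (a₀ e) (hadm e).1 (hadm e).2).nonunits
  u_tgt : L'.u ∈ (S₀.O (S₀.tgt e)).nonunits
  unif₁ : ∃ i, ∃ t : (L'.level i).R,
    (placeAt k 0).ord (circleRes (I.ch e).toCore (a₀ e) (hadm e).1 (hadm e).2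
      ⟨t, X₁.le i t t.2⟩) = 1
  unif₂ : ∃ i, ∃ t : (L'.level i).R,
    (S₀.s₂ e).ord (S₀.res (S₀.tgt e) ⟨t, X₂.le i t t.2⟩) = 1

variable {I a₀ hadm e}

/-- the explicit form of the branch data of the outer node -/
theorem outerBranch_of_branchDataN
    {L' : AnnulusLevels A (tube (sref I a₀ hadm) (outer I a₀ hadm e)) ι'}
    (X' : BranchDataN (sref I a₀ hadm) (outer I a₀ hadm e) L') : OuterBranch I a₀ hadm e L' := by
  have key : ∃ X₂ : BranchComp (residue A) ((sref I a₀ hadm).O (exc I a₀ hadm e))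
        ((sref I a₀ hadm).res (exc I a₀ hadm e)) (placeInfty k) L',
      L'.u ∈ ((sref I a₀ hadm).O (exc I a₀ hadm e)).nonunits ∧
      ∃ i, ∃ t : (L'.level i).R, (placeInfty k).ord
        ((sref I a₀ hadm).res (exc I a₀ hadm e) ⟨t, X₂.le i t t.2⟩) = 1 :=
    sigma_point_elim (sref_tgtPt_outer I a₀ hadm e).symm
      (motive := fun w Q => ∃ X₂ : BranchComp (residue A) ((sref I a₀ hadm).O w)
          ((sref I a₀ hadm).res w) Q L',
        L'.u ∈ ((sref I a₀ hadm).O w).nonunits ∧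
        ∃ i, ∃ t : (L'.level i).R, Q.ord ((sref I a₀ hadm).res w ⟨t, X₂.le i t t.2⟩) = 1)
      ⟨branchComp_tgt X', X'.u_tgt, X'.unif₂⟩
  obtain ⟨X₂, hu, hunif⟩ := key
  exact ⟨branchComp_src X', X₂, X'.v_src, hu, X'.unif₁, hunif⟩

/-- the explicit form of the branch data of the inner node -/
theorem innerBranch_of_branchDataN
    {L' : AnnulusLevels A (tube (sref I a₀ hadm) (inner I a₀ hadm e)) ι'}
    (X' : BranchDataN (sref I a₀ hadm) (inner I a₀ hadm e) L') : InnerBranch I a₀ hadm e L' := by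
  have key : ∃ X₂ : BranchComp (residue A) ((sref I a₀ hadm).O (old I a₀ hadm (S₀.tgt e)))
        ((sref I a₀ hadm).res (old I a₀ hadm (S₀.tgt e))) (S₀.s₂ e) L',
      L'.u ∈ ((sref I a₀ hadm).O (old I a₀ hadm (S₀.tgt e))).nonunits ∧
      ∃ i, ∃ t : (L'.level i).R, (S₀.s₂ e).ord
        ((sref I a₀ hadm).res (old I a₀ hadm (S₀.tgt e)) ⟨t, X₂.le i t t.2⟩) = 1 :=
    sigma_point_elim (sref_tgtPt_inner I a₀ hadm e).symm
      (motive := fun w Q => ∃ X₂ : BranchComp (residue A) ((sref I a₀ hadm).O w)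
          ((sref I a₀ hadm).res w) Q L',
        L'.u ∈ ((sref I a₀ hadm).O w).nonunits ∧
        ∃ i, ∃ t : (L'.level i).R, Q.ord ((sref I a₀ hadm).res w ⟨t, X₂.le i t t.2⟩) = 1)
      ⟨branchComp_tgt X', X'.u_tgt, X'.unif₂⟩
  obtain ⟨X₂, hu, hunif⟩ := key
  exact ⟨branchComp_src X', X₂, X'.v_src, hu, X'.unif₁, hunif⟩

end Ref

/-! ### The node of the split sheet over the outer / inner node -/

section Split

variable {K : Type} {F F₂ : Type*} [Field K] [Field F] [Field F₂] [Algebra K F]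
  [Algebra K F₂] [Algebra F F₂] [IsScalarTower K F F₂] [Algebra.IsIntegral F F₂] [CharZero F₂]
  {A : ValuationSubring K} [IsAlgClosed (ResidueField A)]
  {ι₀ : Type} {Ft₀ : ι₀ → Type} [∀ v, Field (Ft₀ v)] [∀ v, Algebra (ResidueField A) (Ft₀ v)]
  {ν₀ : Type} {S₀ : SemistableSetup (F := F) A (residue A) ι₀ Ft₀ ν₀}
  {I : CircleInputsN S₀} {a₀ : ν₀ → K} {hadm : ∀ e, I.adm e (a₀ e)} {e : ν₀} {ι' : Type*}
  {Ft₁' Ft₂' : Type*} [Field Ft₁'] [Field Ft₂']
  [Algebra (ResidueField A) Ft₁'] [Algebra (ResidueField A) Ft₂']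
  {O₁' O₂' : ValuationSubring F₂} {res₁' : O₁' →+* Ft₁'} {res₂' : O₂' →+* Ft₂'}
  {Q₁' : Place (ResidueField A) Ft₁'} {Q₂' : Place (ResidueField A) Ft₂'}
  {W : F₂} {c₀ : A}

local notation "k" => ResidueField A

/-- **The data of the node of the split sheet `W ≡ c₀` over the OUTER node of `S'ref`** (the node
`nT e` of `S''` along `a`). -/
def OuterBranch.nodeOut
    [Algebra (Ft₀ (S₀.src e)) Ft₁'] [IsScalarTower k (Ft₀ (S₀.src e)) Ft₁']
    [Algebra (RatFunc k) Ft₂'] [IsScalarTower k (RatFunc k) Ft₂']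
    {L' : AnnulusLevels A (tube (sref I a₀ hadm) (outer I a₀ hadm e)) ι'}
    (X : OuterBranch I a₀ hadm e L') (H : SheetHyp L' W c₀)
    (Hc₁ : CoverComp (residue A) (S₀.O (S₀.src e)) (S₀.res (S₀.src e)) (S₀.s₁ e)
      O₁' res₁' Q₁' W c₀)
    (Hc₂ : CoverComp (residue A) (circleRing (I.ch e).toCore (a₀ e) (hadm e).1 (hadm e).2)
      (circleRes (I.ch e).toCore (a₀ e) (hadm e).1 (hadm e).2) (placeInfty k)
      O₂' res₂' Q₂' W c₀)
    (hord₁ : ∀ g : Ft₀ (S₀.src e), Q₁'.ord (algebraMap (Ft₀ (S₀.src e)) Ft₁' g) = (S₀.s₁ e).ord g)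
    (hord₂ : ∀ g : RatFunc k, Q₂'.ord (algebraMap (RatFunc k) Ft₂' g) = (placeInfty k).ord g) :
    NodeOut A (residue A) O₁' res₁' Q₁' O₂' res₂' Q₂'
      (coverTube A (tube (sref I a₀ hadm) (outer I a₀ hadm e)) W c₀) ι' :=
  NodeOut.ofSplit H X.X₁ X.X₂ Hc₁ Hc₂ (res_eq_zero_of_nonunits _)
    (fun x hx => (circleRes_eq_zero_iff (I.ch e).toCore (a₀ e) (hadm e).1 (hadm e).2 x).mpr (by
      rw [ValuationSubring.coe_mem_nonunits_iff, mem_maximalIdeal, mem_nonunits_iff] at hx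
      exact hx))
    X.v_src X.u_tgt hord₁ hord₂ X.unif₁ X.unif₂

/-- **The data of the node of the split sheet `W ≡ c₀` over the INNER node of `S'ref`** (the node
`nW e` of `S''` along `b`). -/
def InnerBranch.nodeOut
    [Algebra (RatFunc k) Ft₁'] [IsScalarTower k (RatFunc k) Ft₁']
    [Algebra (Ft₀ (S₀.tgt e)) Ft₂'] [IsScalarTower k (Ft₀ (S₀.tgt e)) Ft₂']
    {L' : AnnulusLevels A (tube (sref I a₀ hadm) (inner I a₀ hadm e)) ι'}
    (X : InnerBranch I a₀ hadm e L') (H : SheetHyp L' W c₀)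
    (Hc₁ : CoverComp (residue A) (circleRing (I.ch e).toCore (a₀ e) (hadm e).1 (hadm e).2)
      (circleRes (I.ch e).toCore (a₀ e) (hadm e).1 (hadm e).2) (placeAt k 0)
      O₁' res₁' Q₁' W c₀)
    (Hc₂ : CoverComp (residue A) (S₀.O (S₀.tgt e)) (S₀.res (S₀.tgt e)) (S₀.s₂ e)
      O₂' res₂' Q₂' W c₀)
    (hord₁ : ∀ g : RatFunc k, Q₁'.ord (algebraMap (RatFunc k) Ft₁' g) = (placeAt k 0).ord g)
    (hord₂ : ∀ g : Ft₀ (S₀.tgt e), Q₂'.ord (algebraMap (Ft₀ (S₀.tgt e)) Ft₂' g) = (S₀.s₂ e).ord g) :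
    NodeOut A (residue A) O₁' res₁' Q₁' O₂' res₂' Q₂'
      (coverTube A (tube (sref I a₀ hadm) (inner I a₀ hadm e)) W c₀) ι' :=
  NodeOut.ofSplit H X.X₁ X.X₂ Hc₁ Hc₂
    (fun x hx => (circleRes_eq_zero_iff (I.ch e).toCore (a₀ e) (hadm e).1 (hadm e).2 x).mpr (by
      rw [ValuationSubring.coe_mem_nonunits_iff, mem_maximalIdeal, mem_nonunits_iff] at hx
      exact hx))
    (res_eq_zero_of_nonunits _)
    X.v_src X.u_tgt hord₁ hord₂ X.unif₁ X.unif₂

end Split

end Fermat.Agent.BR3.SplitNode
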