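import Mathlib
import Fermat.Agent.BR3.SplitNode.Ref
import Fermat.Agent.BR3.SubAnnChart.ModularRef
import Fermat.Agent.BR3.SDD.ModularGauge

/-!
# Program C (S36), nodes (N1-INST) / (N2-TWO) / (N3-INST), assembly, part 6: the modular frame

In the frame of the integrator (`BR3/SDD/ModularGauge.lean`: `DtM`, `gaugeA`, `gaugeB`, `admA`,
`admB`, `SA`, `SB`) and with helper5's levels `SubAnnChart.levelsM` of the nodes of `S'ref`:

* `levelsOutA B hB hqM h2 h3 e` : the levels of the OUTER node of `S'ref_a` at `e`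
  (`= levelsM … (gaugeA …) (admA …) (outer … e)`), `outerBranchA` : their branch data in explicit
  form (`'can'` at `z₁ e`; the circle ring `ringEA … e` at `T = ∞`);
* `levelsInB B hB hqM h2 h3 e` : the levels of the INNER node of `S'ref_b` at `e`, `innerBranchB`
  (`ringEB … e` at `T = 0`; `'et'` at `z₂ e`);
* **`nodeOutA`** : for ANY sheet `W ≡ c₀` over the outer node of `S'ref_a` along ANY algebra
  `Fb (M q) → Fb (M q²)` — `H : SheetHyp (levelsOutA …) W c₀` and two `CoverComp` — the bundle
  `NodeOut` of the node of `S''` on the raw tube `coverTube B (tube (SA …) (outer … e)) W c₀`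
  (N1: `W = splitW`, `c₀ = 1`, components `cInf`, `z e`; N2-TWO: `c₀ = 0`, components `mid`, `z e`);
* **`nodeOutB`** : the same over the inner node of `S'ref_b` (N3: the node `nW e`).
-/

set_option autoImplicit false
set_option linter.unusedSectionVars false
set_option linter.style.haveILetI false
set_option synthInstance.maxHeartbeats 400000

noncomputable section

/- S36 build-time patch: file-local shortcut instances. They only shorten instance search;
each is the instance that the search finds anyway (reducible, same terms after unfolding). -/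
local instance (priority := 100000) Fermat.Agent.BR3.FastInst.instAlgFullC_SplitNode_Mod
    {k : Type*} [Field k] (N : ℕ) :
    Algebra k ↥(ModularCurve.modularFunctionFieldFullC k N) := inferInstance
local instance (priority := 100000) Fermat.Agent.BR3.FastInst.instFieldFullC_SplitNode_Mod
    {k : Type*} [Field k] (N : ℕ) :
    Field ↥(ModularCurve.modularFunctionFieldFullC k N) := inferInstance
local instance (priority := 100000) Fermat.Agent.BR3.FastInst.instAlgLaurent_SplitNode_Mod
    {k : Type*} [Field k] : Algebra k (LaurentSeries k) := inferInstance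


namespace Fermat.Agent.BR3.SplitNode

open ModularCurve AlgebraicCurve IsLocalRing
open Fermat.Agent.Red Fermat.Agent.Val Fermat.Agent.X0 Fermat.Agent.BR.SS Fermat.Agent.BR.Refine
open Fermat.Agent.BR.Circle Fermat.Agent.BR.S0 Fermat.Agent.BR.S0.PointDict Fermat.Agent.BR.P1
open Fermat.Agent.BR.S0.RedModular Fermat.Agent.BR.Final Fermat.Agent.BR.Inst.AnnulusInstFinal
open Fermat.Agent.BR2.SetupOfData Fermat.Agent.BR3.CircleN Fermat.Agent.BR3.SRef
open Fermat.Agent.BR3.SRef.Modular Fermat.Agent.BR3.SDD.Modular Fermat.Agent.BR3.SubAnnChart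
open Fermat.Agent.BR3.SplitLevels Fermat.Agent.BR3.SplitBranch Fermat.Agent.BR3.CoverSmooth

local notation "Kb" => AlgebraicClosure ℚ

variable {M q : ℕ} [NeZero M] [hq : Fact q.Prime]
variable (B : ValuationSubring (AlgebraicClosure ℚ)) (hB : B.LiesOverPrime q) (hqM : ¬ q ∣ M)
variable [IsAlgClosed (ResidueField B)]

local notation "kB" => IsLocalRing.ResidueField B
local notation "FtM" => modularFunctionFieldFullC (IsLocalRing.ResidueField B) M

/-- (shortcut instance) -/
local instance (priority := 100000) instAlgebraFtMShortcutSN :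
    Algebra (IsLocalRing.ResidueField B)
      (modularFunctionFieldFullC (IsLocalRing.ResidueField B) M) :=
  inferInstance

variable (h2 : nuTwo M = 0) (h3 : nuThree M = 0) (e : Crossing (chartDataModular B hB hqM))

/-- the index type of the levels of the outer node of `S'ref_a` at `e`: the finite sets of
constants of main's levels whose constant field contains the gauge -/
abbrev idxOutA : Type :=
  idxRef (inputs (DtM B hB hqM)) (gaugeA q B hB hqM) (admA B hB hqM h2 h3) (LD (DtM B hB hqM))
    (outer (inputs (DtM B hB hqM)) (gaugeA q B hB hqM) (admA B hB hqM h2 h3) e)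

/-- the index type of the levels of the inner node of `S'ref_b` at `e` -/
abbrev idxInB : Type :=
  idxRef (inputs (DtM B hB hqM)) (gaugeB q B hB hqM) (admB B hB hqM h2 h3) (LD (DtM B hB hqM))
    (inner (inputs (DtM B hB hqM)) (gaugeB q B hB hqM) (admB B hB hqM h2 h3) e)

set_option maxHeartbeats 4000000 in
/-- **the levels of the outer node of `S'ref_a` at `e`** -/
def levelsOutA :
    AnnulusLevels B
      (tube (srefM (DtM B hB hqM) (gaugeA q B hB hqM) (admA B hB hqM h2 h3))
        (outer (inputs (DtM B hB hqM)) (gaugeA q B hB hqM) (admA B hB hqM h2 h3) e))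
      (idxOutA B hB hqM h2 h3 e) :=
  levelsM B hB hqM (gaugeA q B hB hqM) (admA B hB hqM h2 h3)
    (outer (inputs (DtM B hB hqM)) (gaugeA q B hB hqM) (admA B hB hqM h2 h3) e)

set_option maxHeartbeats 4000000 in
/-- **the levels of the inner node of `S'ref_b` at `e`** -/
def levelsInB :
    AnnulusLevels B
      (tube (srefM (DtM B hB hqM) (gaugeB q B hB hqM) (admB B hB hqM h2 h3))
        (inner (inputs (DtM B hB hqM)) (gaugeB q B hB hqM) (admB B hB hqM h2 h3) e))
      (idxInB B hB hqM h2 h3 e) :=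
  levelsM B hB hqM (gaugeB q B hB hqM) (admB B hB hqM h2 h3)
    (inner (inputs (DtM B hB hqM)) (gaugeB q B hB hqM) (admB B hB hqM h2 h3) e)

set_option maxHeartbeats 4000000 in
theorem levelsOutA_u :
    (levelsOutA B hB hqM h2 h3 e).u = annulusCoord (DtM B hB hqM) e := rfl

set_option maxHeartbeats 4000000 in
theorem levelsOutA_v :
    (levelsOutA B hB hqM h2 h3 e).v =
      gaugeA q B hB hqM e • (annulusCoord (DtM B hB hqM) e)⁻¹ := rfl

set_option maxHeartbeats 4000000 in
theorem levelsOutA_thick :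
    (levelsOutA B hB hqM h2 h3 e).thick = gaugeA q B hB hqM e := rfl

set_option maxHeartbeats 4000000 in
theorem levelsInB_u :
    (levelsInB B hB hqM h2 h3 e).u =
      (gaugeB q B hB hqM e)⁻¹ • annulusCoord (DtM B hB hqM) e := rfl

set_option maxHeartbeats 4000000 in
theorem levelsInB_thick :
    (levelsInB B hB hqM h2 h3 e).thick =
      (gaugeB q B hB hqM e)⁻¹ * thick (DtM B hB hqM) e := rfl

set_option maxHeartbeats 4000000 in
/-- the branch data of the levels of the outer node of `S'ref_a` at `e`, in explicit form -/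
theorem outerBranchA :
    OuterBranch (inputs (DtM B hB hqM)) (gaugeA q B hB hqM) (admA B hB hqM h2 h3) e
      (levelsOutA B hB hqM h2 h3 e) :=
  outerBranch_of_branchDataN
    (branchM B hB hqM (gaugeA q B hB hqM) (admA B hB hqM h2 h3)
      (outer (inputs (DtM B hB hqM)) (gaugeA q B hB hqM) (admA B hB hqM h2 h3) e))

set_option maxHeartbeats 4000000 in
/-- the branch data of the levels of the inner node of `S'ref_b` at `e`, in explicit form -/
theorem innerBranchB :
    InnerBranch (inputs (DtM B hB hqM)) (gaugeB q B hB hqM) (admB B hB hqM h2 h3) e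
      (levelsInB B hB hqM h2 h3 e) :=
  innerBranch_of_branchDataN
    (branchM B hB hqM (gaugeB q B hB hqM) (admB B hB hqM h2 h3)
      (inner (inputs (DtM B hB hqM)) (gaugeB q B hB hqM) (admB B hB hqM h2 h3) e))

/-! ### The node of ANY split sheet over the outer node of `S'ref_a` / the inner node of
`S'ref_b` -/

section Generic

variable [Algebra (Fb (M * q)) (Fb (M * q * q))]
  [IsScalarTower Kb (Fb (M * q)) (Fb (M * q * q))]
  [Algebra.IsIntegral (Fb (M * q)) (Fb (M * q * q))]
  {Ft₁' Ft₂' : Type*} [Field Ft₁'] [Field Ft₂'] [Algebra (ResidueField B) Ft₁']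
  [Algebra (ResidueField B) Ft₂']
  {O₁' O₂' : ValuationSubring (Fb (M * q * q))} {res₁' : O₁' →+* Ft₁'} {res₂' : O₂' →+* Ft₂'}
  {Q₁' : Place (ResidueField B) Ft₁'} {Q₂' : Place (ResidueField B) Ft₂'}
  {W : Fb (M * q * q)} {c₀ : B}

set_option maxHeartbeats 4000000 in
/-- **The data of the node of `S''` on the sheet `W ≡ c₀` over the OUTER node of `S'ref_a` at
`e`** (`'can'` at `z₁ e` —— the circle component `ringEA … e` at `T = ∞`), along any algebra
`Fb (M q) → Fb (M q²)`: (N1) `W = splitW`, `c₀ = 1`, components `cInf`, `z e`; (N2-TWO) `q = 2`,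
`c₀ = 0`, components `mid`, `z e`. -/
def nodeOutA [Algebra FtM Ft₁'] [IsScalarTower kB FtM Ft₁']
    [Algebra (RatFunc kB) Ft₂'] [IsScalarTower kB (RatFunc kB) Ft₂']
    (H : SheetHyp (levelsOutA B hB hqM h2 h3 e) W c₀)
    (Hc₁ : CoverComp (residue B) (compW B hB hqM 0).O (compW B hB hqM 0).res
      (z₁ (chartDataModular B hB hqM) e) O₁' res₁' Q₁' W c₀)
    (Hc₂ : CoverComp (residue B)
      (circleRing (core (DtM B hB hqM) e) (gaugeA q B hB hqM e) (admA B hB hqM h2 h3 e).1
        (admA B hB hqM h2 h3 e).2)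
      (circleRes (core (DtM B hB hqM) e) (gaugeA q B hB hqM e) (admA B hB hqM h2 h3 e).1
        (admA B hB hqM h2 h3 e).2) (placeInfty kB) O₂' res₂' Q₂' W c₀)
    (hord₁ : ∀ g : FtM, Q₁'.ord (algebraMap FtM Ft₁' g) =
      (z₁ (chartDataModular B hB hqM) e).ord g)
    (hord₂ : ∀ g : RatFunc kB, Q₂'.ord (algebraMap (RatFunc kB) Ft₂' g) =
      (placeInfty kB).ord g) :
    NodeOut B (residue B) O₁' res₁' Q₁' O₂' res₂' Q₂'
      (coverTube B
        (tube (srefM (DtM B hB hqM) (gaugeA q B hB hqM) (admA B hB hqM h2 h3))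
          (outer (inputs (DtM B hB hqM)) (gaugeA q B hB hqM) (admA B hB hqM h2 h3) e)) W c₀)
      (idxOutA B hB hqM h2 h3 e) :=
  (outerBranchA B hB hqM h2 h3 e).nodeOut H Hc₁ Hc₂ hord₁ hord₂

set_option maxHeartbeats 4000000 in
/-- **The data of the node of `S''` on the sheet `W ≡ c₀` over the INNER node of `S'ref_b` at
`e`** (the circle component `ringEB … e` at `T = 0` —— `'et'` at `z₂ e`), along any algebra
`Fb (M q) → Fb (M q²)`: (N3) along `β₂`, components `z e'`, `cZero`. -/
def nodeOutB [Algebra (RatFunc kB) Ft₁'] [IsScalarTower kB (RatFunc kB) Ft₁']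
    [Algebra FtM Ft₂'] [IsScalarTower kB FtM Ft₂']
    (H : SheetHyp (levelsInB B hB hqM h2 h3 e) W c₀)
    (Hc₁ : CoverComp (residue B)
      (circleRing (core (DtM B hB hqM) e) (gaugeB q B hB hqM e) (admB B hB hqM h2 h3 e).1
        (admB B hB hqM h2 h3 e).2)
      (circleRes (core (DtM B hB hqM) e) (gaugeB q B hB hqM e) (admB B hB hqM h2 h3 e).1
        (admB B hB hqM h2 h3 e).2) (placeAt kB 0) O₁' res₁' Q₁' W c₀)
    (Hc₂ : CoverComp (residue B) (compW B hB hqM 1).O (compW B hB hqM 1).res
      (z₂ (chartDataModular B hB hqM) e) O₂' res₂' Q₂' W c₀)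
    (hord₁ : ∀ g : RatFunc kB, Q₁'.ord (algebraMap (RatFunc kB) Ft₁' g) =
      (placeAt kB 0).ord g)
    (hord₂ : ∀ g : FtM, Q₂'.ord (algebraMap FtM Ft₂' g) =
      (z₂ (chartDataModular B hB hqM) e).ord g) :
    NodeOut B (residue B) O₁' res₁' Q₁' O₂' res₂' Q₂'
      (coverTube B
        (tube (srefM (DtM B hB hqM) (gaugeB q B hB hqM) (admB B hB hqM h2 h3))
          (inner (inputs (DtM B hB hqM)) (gaugeB q B hB hqM) (admB B hB hqM h2 h3) e)) W c₀)
      (idxInB B hB hqM h2 h3 e) :=
  (innerBranchB B hB hqM h2 h3 e).nodeOut H Hc₁ Hc₂ hord₁ hord₂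

section Lemmas

variable [Algebra (modularFunctionFieldFullC (ResidueField B) M) Ft₁'] [IsScalarTower (ResidueField B) (modularFunctionFieldFullC (ResidueField B) M) Ft₁']
  [Algebra (RatFunc (ResidueField B)) Ft₂']
  [IsScalarTower (ResidueField B) (RatFunc (ResidueField B)) Ft₂']
  (H : SheetHyp (levelsOutA B hB hqM h2 h3 e) W c₀)
  (Hc₁ : CoverComp (residue B) (compW B hB hqM 0).O (compW B hB hqM 0).res
    (z₁ (chartDataModular B hB hqM) e) O₁' res₁' Q₁' W c₀)
  (Hc₂ : CoverComp (residue B)
    (circleRing (core (DtM B hB hqM) e) (gaugeA q B hB hqM e) (admA B hB hqM h2 h3 e).1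
      (admA B hB hqM h2 h3 e).2)
    (circleRes (core (DtM B hB hqM) e) (gaugeA q B hB hqM e) (admA B hB hqM h2 h3 e).1
      (admA B hB hqM h2 h3 e).2) (placeInfty (ResidueField B)) O₂' res₂' Q₂' W c₀)
  (hord₁ : ∀ g : (modularFunctionFieldFullC (ResidueField B) M), Q₁'.ord (algebraMap (modularFunctionFieldFullC (ResidueField B) M) Ft₁' g) =
    (z₁ (chartDataModular B hB hqM) e).ord g)
  (hord₂ : ∀ g : RatFunc (ResidueField B), Q₂'.ord (algebraMap (RatFunc (ResidueField B)) Ft₂' g) =
    (placeInfty (ResidueField B)).ord g)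

set_option maxHeartbeats 4000000 in
theorem nodeOutA_L : (nodeOutA B hB hqM h2 h3 e H Hc₁ Hc₂ hord₁ hord₂).L = H.levels := rfl

set_option maxHeartbeats 4000000 in
/-- (G3) `hT`: the thickness of the levels of the node is the gauge -/
theorem nodeOutA_thick :
    (nodeOutA B hB hqM h2 h3 e H Hc₁ Hc₂ hord₁ hord₂).L.thick = gaugeA q B hB hqM e := by
  rw [nodeOutA_L]
  exact (SheetHyp.levels_thick H).trans (levelsOutA_thick B hB hqM h2 h3 e)

set_option maxHeartbeats 4000000 in
/-- the coordinate of the levels of the node is the image of the coordinate of the tube of `e` -/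
theorem nodeOutA_u :
    (nodeOutA B hB hqM h2 h3 e H Hc₁ Hc₂ hord₁ hord₂).L.u =
      algebraMap (Fb (M * q)) (Fb (M * q * q)) (annulusCoord (DtM B hB hqM) e) := by
  rw [nodeOutA_L]
  exact (SheetHyp.levels_u H).trans
    (congrArg (algebraMap (Fb (M * q)) (Fb (M * q * q))) (levelsOutA_u B hB hqM h2 h3 e))

set_option maxHeartbeats 4000000 in
theorem nodeOutA_v :
    (nodeOutA B hB hqM h2 h3 e H Hc₁ Hc₂ hord₁ hord₂).L.v =
      algebraMap (Fb (M * q)) (Fb (M * q * q))
        (gaugeA q B hB hqM e • (annulusCoord (DtM B hB hqM) e)⁻¹) := by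
  rw [nodeOutA_L]
  exact (SheetHyp.levels_v H).trans
    (congrArg (algebraMap (Fb (M * q)) (Fb (M * q * q))) (levelsOutA_v B hB hqM h2 h3 e))

set_option maxHeartbeats 4000000 in
/-- the places of the raw tube of the node: over the tube of the outer node, with a value of the
generator congruent to `c₀` -/
theorem mem_tube_nodeOutA_iff (P : Place Kb (Fb (M * q * q))) :
    P ∈ coverTube B
        (tube (srefM (DtM B hB hqM) (gaugeA q B hB hqM) (admA B hB hqM h2 h3))
          (outer (inputs (DtM B hB hqM)) (gaugeA q B hB hqM) (admA B hB hqM h2 h3) e)) W c₀ ↔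
      P.restrict (Fb (M * q)) ∈
          tube (srefM (DtM B hB hqM) (gaugeA q B hB hqM) (admA B hB hqM h2 h3))
            (outer (inputs (DtM B hB hqM)) (gaugeA q B hB hqM) (admA B hB hqM h2 h3) e) ∧
        ∃ d : Kb, IsValueAt P W d ∧ B.valuation (d - (c₀ : Kb)) < 1 := Iff.rfl

end Lemmas

section LemmasB

variable [Algebra (RatFunc (ResidueField B)) Ft₁']
  [IsScalarTower (ResidueField B) (RatFunc (ResidueField B)) Ft₁']
  [Algebra (modularFunctionFieldFullC (ResidueField B) M) Ft₂'] [IsScalarTower (ResidueField B) (modularFunctionFieldFullC (ResidueField B) M) Ft₂']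
  (H : SheetHyp (levelsInB B hB hqM h2 h3 e) W c₀)
  (Hc₁ : CoverComp (residue B)
    (circleRing (core (DtM B hB hqM) e) (gaugeB q B hB hqM e) (admB B hB hqM h2 h3 e).1
      (admB B hB hqM h2 h3 e).2)
    (circleRes (core (DtM B hB hqM) e) (gaugeB q B hB hqM e) (admB B hB hqM h2 h3 e).1
      (admB B hB hqM h2 h3 e).2) (placeAt (ResidueField B) 0) O₁' res₁' Q₁' W c₀)
  (Hc₂ : CoverComp (residue B) (compW B hB hqM 1).O (compW B hB hqM 1).res
    (z₂ (chartDataModular B hB hqM) e) O₂' res₂' Q₂' W c₀)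
  (hord₁ : ∀ g : RatFunc (ResidueField B), Q₁'.ord (algebraMap (RatFunc (ResidueField B)) Ft₁' g) =
    (placeAt (ResidueField B) 0).ord g)
  (hord₂ : ∀ g : (modularFunctionFieldFullC (ResidueField B) M), Q₂'.ord (algebraMap (modularFunctionFieldFullC (ResidueField B) M) Ft₂' g) =
    (z₂ (chartDataModular B hB hqM) e).ord g)

set_option maxHeartbeats 4000000 in
theorem nodeOutB_L : (nodeOutB B hB hqM h2 h3 e H Hc₁ Hc₂ hord₁ hord₂).L = H.levels := rfl

set_option maxHeartbeats 4000000 in
/-- (G3) `hW`: the thickness of the levels of the node over the inner node of `S'ref_b` -/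
theorem nodeOutB_thick :
    (nodeOutB B hB hqM h2 h3 e H Hc₁ Hc₂ hord₁ hord₂).L.thick =
      (gaugeB q B hB hqM e)⁻¹ * thick (DtM B hB hqM) e := by
  rw [nodeOutB_L]
  exact (SheetHyp.levels_thick H).trans (levelsInB_thick B hB hqM h2 h3 e)

set_option maxHeartbeats 4000000 in
theorem nodeOutB_u :
    (nodeOutB B hB hqM h2 h3 e H Hc₁ Hc₂ hord₁ hord₂).L.u =
      algebraMap (Fb (M * q)) (Fb (M * q * q))
        ((gaugeB q B hB hqM e)⁻¹ • annulusCoord (DtM B hB hqM) e) := by
  rw [nodeOutB_L]
  exact (SheetHyp.levels_u H).trans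
    (congrArg (algebraMap (Fb (M * q)) (Fb (M * q * q))) (levelsInB_u B hB hqM h2 h3 e))

end LemmasB

end Generic

end Fermat.Agent.BR3.SplitNode
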