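import Mathlib
import Fermat.Agent.BR3.VertSheet.ModularAll
import Fermat.Agent.BR3.SplitNode.Small
import Fermat.Agent.BR3.SplitHoriz

/-!
# Program C (S36), node (N1-INST), assembly, part 2: the inputs of the split sheet at EVERY
supersingular crossing (the `g`-frame)
-/

set_option autoImplicit false
set_option linter.unusedSectionVars false
set_option linter.style.haveILetI false
set_option synthInstance.maxHeartbeats 400000

noncomputable section

/- S36 build-time patch: file-local shortcut instances. They only shorten instance search;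
each is the instance that the search finds anyway (reducible, same terms after unfolding). -/
local instance (priority := 100000) Fermat.Agent.BR3.FastInst.instAlgFullC_SplitNode_Inputs
    {k : Type*} [Field k] (N : ℕ) :
    Algebra k ↥(ModularCurve.modularFunctionFieldFullC k N) := inferInstance
local instance (priority := 100000) Fermat.Agent.BR3.FastInst.instFieldFullC_SplitNode_Inputs
    {k : Type*} [Field k] (N : ℕ) :
    Field ↥(ModularCurve.modularFunctionFieldFullC k N) := inferInstance
local instance (priority := 100000) Fermat.Agent.BR3.FastInst.instAlgLaurent_SplitNode_Inputs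
    {k : Type*} [Field k] : Algebra k (LaurentSeries k) := inferInstance


namespace Fermat.Agent.BR3.SplitNode

open Polynomial ModularCurve AlgebraicCurve IsLocalRing
open Fermat.Agent.X0 Fermat.Agent.Val Fermat.Agent.Red Fermat.Agent.Hecke
open Fermat.Agent.BR.SS Fermat.Agent.BR.Refine Fermat.Agent.BR.TwoVal Fermat.Agent.BR.TwoValInst
open Fermat.Agent.BR.ResGen
open Fermat.Agent.BR.Circle Fermat.Agent.BR.S0 Fermat.Agent.BR.S0.RedModular
open Fermat.Agent.BR.S0.PointDict Fermat.Agent.BR.S0.AnnulusChartOfLevels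
open Fermat.Agent.BR.S0.Modular Fermat.Agent.BR.S0.ThickFinal
open Fermat.Agent.BR.Inst.Levels Fermat.Agent.BR.Inst.NormalModel Fermat.Agent.BR.Inst.LevelsInst
open Fermat.Agent.BR.Inst.SpecIso
open Fermat.Agent.BR.Inst.AnnulusInstFinal Fermat.Agent.BR.Final
open Fermat.Agent.BR3.FibreProd Fermat.Agent.BR3.VertResidue Fermat.Agent.BR3.HeckePoly
open Fermat.Agent.BR3.HeckePolyKron Fermat.Agent.BR3.HeckePolyModel
open Fermat.Agent.BR3.HeckePolyDescent
open Fermat.Agent.BR3.VertCircleMod Fermat.Agent.BR3.VertLevelMem Fermat.Agent.BR3.VertFinal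
open Fermat.Agent.BR3.VertTube Fermat.Agent.BR3.VertAllLevels Fermat.Agent.BR3.VertAll
open Fermat.Agent.BR3.VertAllParam
open Fermat.Agent.BR3.ThickOneFinal Fermat.Agent.BR3.ThickOneUnit Fermat.Agent.BR3.SSParam

variable {M q : ℕ} [NeZero M] [hq : Fact q.Prime]
variable (B : ValuationSubring Kb) (hB : B.LiesOverPrime q) (hqM : ¬ q ∣ M)

variable [IsAlgClosed (ResidueField B)]
  (hne : Nonempty (Crossing (chartDataModular B hB hqM)))
  (e : Crossing (chartDataModular B hB hqM))

/-! ### the levels of the tube of `e` grow with `S` -/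

set_option maxHeartbeats 4000000 in
/-- the base level of the tube of `e` lies in every level -/
theorem level_empty_le (S : Finset Kb) :
    ((annulusLevels_modular_final B hB hqM hne e).level (∅ : Finset Kb)).R ≤
      ((annulusLevels_modular_final B hB hqM hne e).level S).R := by
  have hF := crossingFamily_final B hB hqM hne e
  exact (hF.model ∅).loc_mono (hF.model S) (hF.base S)

/-! ### the branch data of the levels on the two components `'can'`, `'et'` -/

set_option maxHeartbeats 4000000 in
/-- the branch data of main's levels on the component `'can'` at `z₁ e` -/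
theorem branchComp_can :
    SplitBranch.BranchComp (residue B) (compW B hB hqM 0).O (compW B hB hqM 0).res
      (z₁ (chartDataModular B hB hqM) e) (annulusLevels_modular_final B hB hqM hne e) :=
  SplitNodeChart.branchComp_src
    (CircleN.BranchDataN.ofBranchData (branchData_modular_final B hB hqM hne e))

set_option maxHeartbeats 4000000 in
/-- the branch data of main's levels on the component `'et'` at `z₂ e` -/
theorem branchComp_et :
    SplitBranch.BranchComp (residue B) (compW B hB hqM 1).O (compW B hB hqM 1).res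
      (z₂ (chartDataModular B hB hqM) e) (annulusLevels_modular_final B hB hqM hne e) :=
  SplitNodeChart.branchComp_tgt
    (CircleN.BranchDataN.ofBranchData (branchData_modular_final B hB hqM hne e))

/-! ### the twisted triple: the Kronecker shape, the memberships, the unit -/

section Triple

variable [CharP (ResidueField B) q] {g g' g'' : Fb M} (P : IsSSParam B hB hqM e g g' g'')

include P in
set_option maxHeartbeats 4000000 in
/-- **The data of the twisted triple in the levels of the tube of `e`**: the Kronecker shape of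
`PAt g` with `x₁ = β g'`, `x₂ = β g''`, all the data in the base level, and
`Ψ₁(α g)` a unit of the base level (`v_g u_g = q • Ψ₁(α g)`). -/
theorem exists_kronecker_level (h2 : nuTwo M = 0) (h3 : nuThree M = 0) :
    ∃ Ψ₁ : (Fb (M * q))[X],
      PAt M q g =
        (X ^ q - C (heckeBetaBar Kb M q g'')) * (X - C ((heckeBetaBar Kb M q g') ^ q)) +
          C ((q : ℕ) : Fb (M * q)) * Ψ₁ ∧
      (∀ k, Ψ₁.coeff k ∈
        ((annulusLevels_modular_final B hB hqM hne e).level (∅ : Finset Kb)).R) ∧
      heckeAlphaBar Kb M q g ∈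
        ((annulusLevels_modular_final B hB hqM hne e).level (∅ : Finset Kb)).R ∧
      heckeBetaBar Kb M q g' ∈
        ((annulusLevels_modular_final B hB hqM hne e).level (∅ : Finset Kb)).R ∧
      heckeBetaBar Kb M q g'' ∈
        ((annulusLevels_modular_final B hB hqM hne e).level (∅ : Finset Kb)).R ∧
      ∃ hz : Ψ₁.eval (heckeAlphaBar Kb M q g) ∈
          ((annulusLevels_modular_final B hB hqM hne e).level (∅ : Finset Kb)).R,
        IsUnit (⟨_, hz⟩ :
          ((annulusLevels_modular_final B hB hqM hne e).level (∅ : Finset Kb)).R) := by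
  have hg := P.hg
  have hg' := P.hg'
  have hg'' := P.hg''
  obtain ⟨Ψ₁, hΨ, hP⟩ := exists_kronecker_PAt_q B hB hqM hg hg' hg'' P.untwist P.twist
  have hgO := mem_OM_of_mem_CMod (levelHyp_base B hB hqM) hg
  have hg'O := mem_OM_of_mem_CMod (levelHyp_base B hB hqM) hg'
  have hg''O := mem_OM_of_mem_CMod (levelHyp_base B hB hqM) hg''
  have hxO := vg_mem_O1 B hB hqM (mem_OM_of_mem_CMod_base B hB hqM P.hg)
    (mem_OM_of_mem_CMod_base B hB hqM P.hg')
  have hyO := ug_mem_O2 B hB hqM (mem_OM_of_mem_CMod_base B hB hqM P.hg)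
    (mem_OM_of_mem_CMod_base B hB hqM P.hg'')
  have hxord := P.hxord hxO
  have hyord := P.hyord hyO
  have hαR := alpha_mem_level B hB hqM hne e hg
  have hβ'R := beta_mem_level B hB hqM hne e hg'
  have hβ''R := beta_mem_level B hB hqM hne e hg''
  have hΨR : ∀ k, Ψ₁.coeff k ∈
      ((annulusLevels_modular_final B hB hqM hne e).level (∅ : Finset Kb)).R :=
    fun k => CQ0_le_level B hB hqM hne e (hΨ k)
  have hx : heckeAlphaBar Kb M q g - (heckeBetaBar Kb M q g') ^ q ∈
      ((annulusLevels_modular_final B hB hqM hne e).level (∅ : Finset Kb)).R :=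
    sub_mem hαR (pow_mem hβ'R q)
  have hy : heckeBetaBar Kb M q g'' - (heckeAlphaBar Kb M q g) ^ q ∈
      ((annulusLevels_modular_final B hB hqM hne e).level (∅ : Finset Kb)).R :=
    sub_mem hβ''R (pow_mem hαR q)
  have hz : Ψ₁.eval (heckeAlphaBar Kb M q g) ∈
      ((annulusLevels_modular_final B hB hqM hne e).level (∅ : Finset Kb)).R :=
    eval_mem_of_coeff_mem _ hΨR hαR
  have hxyz := vg_mul_ug (M := M) (q := q) hqM hP
  have hx₂ : heckeAlphaBar Kb M q g - (heckeBetaBar Kb M q g') ^ q ∈
      (compW B hB hqM 1).O.nonunits := vg_mem_nonunits_O2 B hB hqM hgO hg'O P.untwist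
  have hy₁ : heckeBetaBar Kb M q g'' - (heckeAlphaBar Kb M q g) ^ q ∈
      (compW B hB hqM 0).O.nonunits := ug_mem_nonunits_O1 B hB hqM hgO hg''O P.twist
  have hR := isUnit_of_simple_zeros_final B hB hqM hne e h2 h3 hx hy hz hx₂ hy₁ hxO hyO
    hxord hyord hxyz
  exact ⟨Ψ₁, hP, hΨR, hαR, hβ'R, hβ''R, hz, hR⟩

end Triple

section Coord

variable [CharP (ResidueField B) q] {g g' g'' : Fb M} (P : IsSSParam B hB hqM e g g' g'')

include P in
set_option maxHeartbeats 4000000 in
/-- **The function `v_g = α g - (β g')^q` divides the coordinate `u` of the tube of `e` in EVERY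
level** (`SplitCoord.coord_mul_inv_mem` with `x = v_g`, `y = u_g`, `z = Ψ₁(α g)`, `κ = q`). -/
theorem coord_mul_inv_vg_mem (h2 : nuTwo M = 0) (h3 : nuThree M = 0) (S : Finset Kb) :
    (annulusLevels_modular_final B hB hqM hne e).u *
        (heckeAlphaBar Kb M q g - (heckeBetaBar Kb M q g') ^ q)⁻¹ ∈
      ((annulusLevels_modular_final B hB hqM hne e).level S).R := by
  obtain ⟨Ψ₁, hP, hΨR, hαR, hβ'R, hβ''R, hz, hR⟩ :=
    exists_kronecker_level B hB hqM hne e P h2 h3
  have hle := level_empty_le B hB hqM hne e S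
  have hF := crossingFamily_final B hB hqM hne e
  have hxO := vg_mem_O1 B hB hqM (mem_OM_of_mem_CMod_base B hB hqM P.hg)
    (mem_OM_of_mem_CMod_base B hB hqM P.hg')
  have hyO := ug_mem_O2 B hB hqM (mem_OM_of_mem_CMod_base B hB hqM P.hg)
    (mem_OM_of_mem_CMod_base B hB hqM P.hg'')
  have hres0₁ : ∀ x : (compW B hB hqM 0).O, (x : Fb (M * q)) ∈ (compW B hB hqM 0).O.nonunits →
      (compW B hB hqM 0).res x = 0 :=
    fun y hy => (Fermat.Agent.BR.S0.SmoothAssembly.constRed_res_eq_zero_iff (compW B hB hqM 0) y).mpr hy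
  have hres0₂ : ∀ x : (compW B hB hqM 1).O, (x : Fb (M * q)) ∈ (compW B hB hqM 1).O.nonunits →
      (compW B hB hqM 1).res x = 0 :=
    fun y hy => (Fermat.Agent.BR.S0.SmoothAssembly.constRed_res_eq_zero_iff (compW B hB hqM 1) y).mpr hy
  have hx : heckeAlphaBar Kb M q g - (heckeBetaBar Kb M q g') ^ q ∈
      ((annulusLevels_modular_final B hB hqM hne e).level S).R :=
    hle (sub_mem hαR (pow_mem hβ'R q))
  have hy : heckeBetaBar Kb M q g'' - (heckeAlphaBar Kb M q g) ^ q ∈
      ((annulusLevels_modular_final B hB hqM hne e).level S).R :=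
    hle (sub_mem hβ''R (pow_mem hαR q))
  have hzS : Ψ₁.eval (heckeAlphaBar Kb M q g) ∈
      ((annulusLevels_modular_final B hB hqM hne e).level S).R := hle hz
  have hzu : IsUnit (⟨_, hzS⟩ : ((annulusLevels_modular_final B hB hqM hne e).level S).R) :=
    hR.map (Subring.inclusion hle)
  have hx₁ : heckeAlphaBar Kb M q g - (heckeBetaBar Kb M q g') ^ q ∉
      (compW B hB hqM 0).O.nonunits := by
    intro hn
    have h0 := hres0₁ ⟨_, hxO⟩ hn
    have := P.hxord hxO
    rw [h0, Place.ord_zero] at this
    exact zero_ne_one this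
  have hy₂ : heckeBetaBar Kb M q g'' - (heckeAlphaBar Kb M q g) ^ q ∉
      (compW B hB hqM 1).O.nonunits := by
    intro hn
    have h0 := hres0₂ ⟨_, hyO⟩ hn
    have := P.hyord hyO
    rw [h0, Place.ord_zero] at this
    exact zero_ne_one this
  exact SplitCoord.coord_mul_inv_mem (branchComp_can B hB hqM hne e) (branchComp_et B hB hqM hne e)
    SplitNodeChart.residue_eq_zero_of_lt hF.v_unit₁ hF.u_unit₂ S hx hy hzS hzu
    (vg_mul_ug (M := M) (q := q) hqM hP)
    (valuation_thick_levels_final B hB hqM h2 h3 hne e).symm hx₁ hy₂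

end Coord

/-! ### the degeneracy maps preserve the fields of definition -/

section Fields

open Fermat.Agent.BR.Inst.FKCover Fermat.Agent.BR.Inst.DegenModel Fermat.Agent.Good.Bridge

/-- `α` maps `FKs N E` into `FKs (N q') E`. -/
theorem alpha_mem_FKs {N q' : ℕ} [NeZero N] [NeZero q'] (E : Subfield Kb) {x : Fb N}
    (hx : x ∈ FKs N E) : heckeAlphaBar Kb N q' x ∈ FKs (N * q') E := by
  unfold FKs at hx ⊢
  induction hx using Subfield.closure_induction with
  | mem y hy =>
      rcases hy with ⟨c, hc, rfl⟩ | ⟨z, rfl⟩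
      · rw [AlgHom.commutes]
        exact Subfield.subset_closure (Or.inl ⟨c, hc, rfl⟩)
      · rw [alpha_barEmb]
        exact Subfield.subset_closure (Or.inr ⟨_, rfl⟩)
  | one => rw [map_one]; exact one_mem _
  | add x y _ _ hx hy => rw [map_add]; exact add_mem hx hy
  | neg x _ hx => rw [map_neg]; exact neg_mem hx
  | inv x _ hx => rw [map_inv₀]; exact inv_mem hx
  | mul x y _ _ hx hy => rw [map_mul]; exact mul_mem hx hy

/-- `β` maps `FKs N E` into `FKs (N q') E`. -/
theorem beta_mem_FKs {N q' : ℕ} [NeZero N] [NeZero q'] (E : Subfield Kb) {x : Fb N}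
    (hx : x ∈ FKs N E) : heckeBetaBar Kb N q' x ∈ FKs (N * q') E := by
  unfold FKs at hx ⊢
  induction hx using Subfield.closure_induction with
  | mem y hy =>
      rcases hy with ⟨c, hc, rfl⟩ | ⟨z, rfl⟩
      · rw [AlgHom.commutes]
        exact Subfield.subset_closure (Or.inl ⟨c, hc, rfl⟩)
      · rw [beta_barEmb]
        exact Subfield.subset_closure (Or.inr ⟨_, rfl⟩)
  | one => rw [map_one]; exact one_mem _
  | add x y _ _ hx hy => rw [map_add]; exact add_mem hx hy
  | neg x _ hx => rw [map_neg]; exact neg_mem hx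
  | inv x _ hx => rw [map_inv₀]; exact inv_mem hx
  | mul x y _ _ hx hy => rw [map_mul]; exact mul_mem hx hy

end Fields

end Fermat.Agent.BR3.SplitNode
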