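import Mathlib
import Fermat.Agent.BR3.SplitNode.Inputs
import Fermat.Agent.BR3.SplitCompsCInf

/-!
# Program C (S36), node (N1-INST), assembly, part 3: the minimal polynomial of the split sheet
`W = U_g / α₂ c`, `c = -(α g - (β g')^q)`, at EVERY supersingular crossing
-/

set_option autoImplicit false
set_option linter.unusedSectionVars false
set_option linter.style.haveILetI false
set_option synthInstance.maxHeartbeats 400000

noncomputable section

/- S36 build-time patch: file-local shortcut instances. They only shorten instance search;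
each is the instance that the search finds anyway (reducible, same terms after unfolding). -/
local instance (priority := 100000) Fermat.Agent.BR3.FastInst.instAlgFullC_SplitNode_Sheet
    {k : Type*} [Field k] (N : ℕ) :
    Algebra k ↥(ModularCurve.modularFunctionFieldFullC k N) := inferInstance
local instance (priority := 100000) Fermat.Agent.BR3.FastInst.instFieldFullC_SplitNode_Sheet
    {k : Type*} [Field k] (N : ℕ) :
    Field ↥(ModularCurve.modularFunctionFieldFullC k N) := inferInstance
local instance (priority := 100000) Fermat.Agent.BR3.FastInst.instAlgLaurent_SplitNode_Sheet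
    {k : Type*} [Field k] : Algebra k (LaurentSeries k) := inferInstance


namespace Fermat.Agent.BR3.SplitNode

open Polynomial ModularCurve AlgebraicCurve IsLocalRing
open Fermat.Agent.X0 Fermat.Agent.Val Fermat.Agent.Red Fermat.Agent.Hecke
open Fermat.Agent.BR.SS Fermat.Agent.BR.Refine Fermat.Agent.BR.TwoVal Fermat.Agent.BR.TwoValInst
open Fermat.Agent.BR.ResGen
open Fermat.Agent.BR.Circle Fermat.Agent.BR.S0 Fermat.Agent.BR.S0.RedModular
open Fermat.Agent.BR.S0.PointDict Fermat.Agent.BR.S0.AnnulusChartOfLevels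
open Fermat.Agent.BR.S0.Modular Fermat.Agent.BR.S0.ThickFinal
open Fermat.Agent.BR.Inst.Levels Fermat.Agent.BR.Inst.NormalModel Fermat.Agent.BR.Inst.LevelsInst
open Fermat.Agent.BR.Inst.SpecIso
open Fermat.Agent.BR.Inst.AnnulusInstFinal Fermat.Agent.BR.Final
open Fermat.Agent.BR3.FibreProd Fermat.Agent.BR3.VertResidue Fermat.Agent.BR3.HeckePoly
open Fermat.Agent.BR3.HeckePolyKron Fermat.Agent.BR3.HeckePolyModel
open Fermat.Agent.BR3.HeckePolyDescent
open Fermat.Agent.BR3.VertCircleMod Fermat.Agent.BR3.VertLevelMem Fermat.Agent.BR3.VertFinal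
open Fermat.Agent.BR3.VertTube Fermat.Agent.BR3.VertAllLevels Fermat.Agent.BR3.VertAll
open Fermat.Agent.BR3.VertAllParam Fermat.Agent.BR3.VertTaylorAt
open Fermat.Agent.BR3.ThickOneFinal Fermat.Agent.BR3.ThickOneUnit Fermat.Agent.BR3.SSParam
open Fermat.Agent.BR3.VertSheet Fermat.Agent.BR3.SplitCompsCInf

variable {M q : ℕ} [NeZero M] [hq : Fact q.Prime]
variable (B : ValuationSubring Kb) (hB : B.LiesOverPrime q) (hqM : ¬ q ∣ M)

variable [IsAlgClosed (ResidueField B)]
  (hne : Nonempty (Crossing (chartDataModular B hB hqM)))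
  (e : Crossing (chartDataModular B hB hqM))

variable [CharP (ResidueField B) q] {g g' g'' : Fb M} (P : IsSSParam B hB hqM e g g' g'')

variable (M q) in
/-- the gauge function of the split sheet: `c = -(α g - (β g')^q)` -/
def splitC (g g' : Fb M) : Fb (M * q) :=
  -(heckeAlphaBar Kb M q g - (heckeBetaBar Kb M q g') ^ q)

/-- the generator of the split sheet (helper13's `SplitCompsCInf.splitW`) is `U_g / α₂ c` -/
theorem splitW_eq (g g' : Fb M) :
    splitW M q g g' = Ug M q g / alpha2 M q (splitC M q g g') := rfl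

include P in
/-- `c ≠ 0` -/
theorem splitC_ne_zero : splitC M q g g' ≠ 0 := by
  have hxO := vg_mem_O1 B hB hqM (mem_OM_of_mem_CMod_base B hB hqM P.hg)
    (mem_OM_of_mem_CMod_base B hB hqM P.hg')
  intro h0
  have h1 : heckeAlphaBar Kb M q g - (heckeBetaBar Kb M q g') ^ q = 0 := by
    unfold splitC at h0
    exact neg_eq_zero.mp h0
  have := P.hxord hxO
  have e0 : (⟨heckeAlphaBar Kb M q g - (heckeBetaBar Kb M q g') ^ q, hxO⟩ :
      (compW B hB hqM 0).O) = 0 := Subtype.ext h1
  rw [e0, map_zero, Place.ord_zero] at this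
  exact zero_ne_one this

include P in
/-- `U_g = W · α₂ c` (the input `hWU` of `SDD.TubesB.exists_value_Ug_of_unit`) -/
theorem Ug_eq_splitW_mul :
    Ug M q g = splitW M q g g' *
      alpha2 M q (-(heckeAlphaBar Kb M q g - heckeBetaBar Kb M q g' ^ q)) := by
  have h0 : alpha2 M q (splitC M q g g') ≠ 0 :=
    (_root_.map_ne_zero _).mpr (splitC_ne_zero B hB hqM e P)
  show Ug M q g = Ug M q g / alpha2 M q (splitC M q g g') * alpha2 M q (splitC M q g g')
  rw [div_mul_cancel₀ _ h0]

include P in
set_option maxHeartbeats 4000000 in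
/-- `α g + U_g` is a root of `PAt g` and `U_g ∉ α₂ F₁`, at every supersingular crossing. -/
theorem vertData_all (h2 : nuTwo M = 0) (h3 : nuThree M = 0) :
    letI := algebraAlong (alpha2 M q)
    aeval (algebraMap (Fb (M * q)) (Fb (M * q * q)) (heckeAlphaBar Kb M q g) + Ug M q g)
        (PAt M q g) = 0 ∧
      Ug M q g ∉ Set.range (algebraMap (Fb (M * q)) (Fb (M * q * q))) := by
  letI := algebraAlong (alpha2 M q)
  have hne : Nonempty (Crossing (chartDataModular B hB hqM)) := ⟨e⟩
  obtain ⟨Ψ₁, hP, hΨR, hαR, hβ'R, hβ''R, hz, hR⟩ :=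
    exists_kronecker_level B hB hqM hne e P h2 h3
  have hxO := vg_mem_O1 B hB hqM (mem_OM_of_mem_CMod_base B hB hqM P.hg)
    (mem_OM_of_mem_CMod_base B hB hqM P.hg')
  have hthick := valuation_thick_levels_final B hB hqM h2 h3 hne e
  obtain ⟨a₀, ha1, ha2, ha₀⟩ := exists_gauge B hB hthick
  have hq0 : ((q : ℕ) : Kb) ≠ 0 := Nat.cast_ne_zero.mpr hq.out.ne_zero
  have hx : heckeAlphaBar Kb M q g - (heckeBetaBar Kb M q g') ^ q ∈
      ((annulusLevels_modular_final B hB hqM hne e).level (∅ : Finset Kb)).R :=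
    sub_mem hαR (pow_mem hβ'R q)
  have hy : heckeBetaBar Kb M q g'' - (heckeAlphaBar Kb M q g) ^ q ∈
      ((annulusLevels_modular_final B hB hqM hne e).level (∅ : Finset Kb)).R :=
    sub_mem hβ''R (pow_mem hαR q)
  obtain ⟨β, hβ, hred⟩ := exists_isRed_inv_smul_of_levels
    (branchData_modular_final B hB hqM hne e) a₀ ha1 ∅ hx hy hz hR hq0
    (vg_mul_ug (M := M) (q := q) hqM hP) (P.hxord hxO)
  exact (vertData_of_levels_tw hqM (annulusLevels_modular_final B hB hqM hne e) a₀ ha1 ha2 ha₀ ∅
    P.nonconst hP hβ'R hαR hΨR hz hR hβ hred).2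

include P in
set_option maxHeartbeats 4000000 in
/-- **The minimal polynomial of the split sheet** `W = U_g / α₂ c` over `F₁` (along `α₂`) is the
scaled vertical polynomial of `PAt g` at `α g` with the gauge `c`, and `W` generates `F₂`. -/
theorem minpoly_splitW (h2 : nuTwo M = 0) (h3 : nuThree M = 0) :
    letI := algebraAlong (alpha2 M q)
    minpoly (Fb (M * q)) (splitW M q g g') =
        vertScaledAt (PAt M q g) q (heckeAlphaBar Kb M q g) (splitC M q g g') ∧
      ∀ z : Fb (M * q * q), ∃ p : (Fb (M * q))[X], aeval (splitW M q g g') p = z := by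
  letI := algebraAlong (alpha2 M q)
  haveI : Module.Finite (Fb (M * q)) (Fb (M * q * q)) :=
    Fermat.Agent.Hecke.finiteAlong_heckeAlphaBar (M * q) q
  obtain ⟨h1, hU⟩ := vertData_all B hB hqM e P h2 h3
  have hmon : (PAt M q g).Monic := PAt_monic g
  have hdeg : (PAt M q g).natDegree = q + 1 := PAt_natDegree hqM g
  have h0 : (PAt M q g).eval (heckeAlphaBar Kb M q g) = 0 := PAt_eval_alpha hqM g
  obtain ⟨hmin, htop⟩ := minpoly_theta_at hq.out finrankAlong_alpha2 hmon hdeg h0 h1 hU
    (splitC_ne_zero B hB hqM e P)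
  have hθ : Ug M q g / algebraMap (Fb (M * q)) (Fb (M * q * q)) (splitC M q g g') =
      splitW M q g g' := rfl
  rw [hθ] at hmin htop
  refine ⟨hmin, fun z => ?_⟩
  have hint : IsIntegral (Fb (M * q)) (splitW M q g g') := Algebra.IsIntegral.isIntegral _
  set pb : PowerBasis (Fb (M * q)) (Fb (M * q * q)) :=
    Fermat.Agent.BR3.GaussExt.powerBasisOfAdjoinEqTop (θ := splitW M q g g') hint htop with hpb
  have hgen : pb.gen = splitW M q g g' :=
    Fermat.Agent.BR3.GaussExt.powerBasisOfAdjoinEqTop_gen _ _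
  obtain ⟨f, hf⟩ := pb.exists_eq_aeval' z
  exact ⟨f, by rw [hf, hgen]⟩

end Fermat.Agent.BR3.SplitNode
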