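import Mathlib
import Fermat.Agent.BR3.SplitNode.Mod
import Fermat.Agent.BR3.SplitNode.Sheet

/-!
# Program C (S36), node (N1-INST), assembly, part 7: the node `nT e` (`cInf` —— `z e`) of `S''`

`nodeOutT` : the bundle `NodeOut` (levels, branch data on `cInf` at `z₁ e` and on the vertical
component `(Z, resZ)` at `ptIBar`, `v ≡ 0` on `cInf`, `u ≡ 0` on `z e`, uniformizers) of the node
`nT e` on the raw tube `coverTube B (tube S'ref_a (outer e)) (splitW M q g g') 1` (along `α₂`), from

* `H : SheetHyp (levelsOutA …) (splitW M q g g') 1` (helper19's glue over the outer levels),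
* the clauses `Hv : VertComp …`, `hred` of the vertical component (the `z e` package),
* helper13's `coverComp_cInf`, `coverComp_ze`, `ord_algebraMap_cInf`, `ord_algebraMap_ptIBar`.

Its fields are the fields `LT e`, `T₁ e`, `T₂ e`, `T_v_src e`, `T_u_tgt e`, `T_unif₁ e`,
`T_unif₂ e` of `SDD.Partition.CaseCircle.ofRaw`; `(nodeOutT …).chart …` is `chT e` of
`caseInputOfRaw`; `nodeOutT_thick` is (G3) `hT`; `nodeOutT_u` the coordinate `α₂ u_e`.
-/

set_option autoImplicit false
set_option linter.unusedSectionVars false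
set_option linter.style.haveILetI false
set_option synthInstance.maxHeartbeats 400000

noncomputable section

/- S36 build-time patch: file-local shortcut instances. They only shorten instance search;
each is the instance that the search finds anyway (reducible, same terms after unfolding). -/
local instance (priority := 100000) Fermat.Agent.BR3.FastInst.instAlgFullC_SplitNode_ModT
    {k : Type*} [Field k] (N : ℕ) :
    Algebra k ↥(ModularCurve.modularFunctionFieldFullC k N) := inferInstance
local instance (priority := 100000) Fermat.Agent.BR3.FastInst.instFieldFullC_SplitNode_ModT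
    {k : Type*} [Field k] (N : ℕ) :
    Field ↥(ModularCurve.modularFunctionFieldFullC k N) := inferInstance
local instance (priority := 100000) Fermat.Agent.BR3.FastInst.instAlgLaurent_SplitNode_ModT
    {k : Type*} [Field k] : Algebra k (LaurentSeries k) := inferInstance


namespace Fermat.Agent.BR3.SplitNode

open ModularCurve AlgebraicCurve IsLocalRing Polynomial
open Fermat.Agent.Red Fermat.Agent.Val Fermat.Agent.X0 Fermat.Agent.Hecke
open Fermat.Agent.BR.SS Fermat.Agent.BR.Refine Fermat.Agent.BR.TwoVal Fermat.Agent.BR.TwoValInst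
open Fermat.Agent.BR.Circle Fermat.Agent.BR.S0 Fermat.Agent.BR.S0.PointDict Fermat.Agent.BR.P1
open Fermat.Agent.BR.S0.RedModular Fermat.Agent.BR.Final Fermat.Agent.BR.Inst.AnnulusInstFinal
open Fermat.Agent.BR2.SetupOfData Fermat.Agent.BR3.CircleN Fermat.Agent.BR3.SRef
open Fermat.Agent.BR3.SRef.Modular Fermat.Agent.BR3.SDD.Modular Fermat.Agent.BR3.SubAnnChart
open Fermat.Agent.BR3.SplitLevels Fermat.Agent.BR3.SplitBranch Fermat.Agent.BR3.CoverSmooth
open Fermat.Agent.BR3.FibreProd Fermat.Agent.BR3.HeckePoly Fermat.Agent.BR3.SSParam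
open Fermat.Agent.BR3.VertResidue Fermat.Agent.BR3.VertSheet Fermat.Agent.BR3.VertPtsDef
open Fermat.Agent.BR3.SplitCompsCInf Fermat.Agent.BR3.CInfRes

local notation "Kb" => AlgebraicClosure ℚ

variable {M q : ℕ} [NeZero M] [hq : Fact q.Prime]
variable (B : ValuationSubring (AlgebraicClosure ℚ)) (hB : B.LiesOverPrime q) (hqM : ¬ q ∣ M)
variable [IsAlgClosed (ResidueField B)]

local notation "kB" => IsLocalRing.ResidueField B
local notation "FtM" => modularFunctionFieldFullC (IsLocalRing.ResidueField B) M

/-- (shortcut instance) -/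
local instance (priority := 100000) instAlgebraFtMShortcutSNT :
    Algebra (IsLocalRing.ResidueField B)
      (modularFunctionFieldFullC (IsLocalRing.ResidueField B) M) :=
  inferInstance

variable (h2 : nuTwo M = 0) (h3 : nuThree M = 0) (e : Crossing (chartDataModular B hB hqM))
  [CharP (ResidueField B) q] [PerfectField (ResidueField B)]
  {g g' g'' : Fb M} (P : IsSSParam B hB hqM e g g' g'')
  {β ρ : ResidueField B} [Fact (Irreducible (vertBar q β ρ))]
  {Z : ValuationSubring (Fb (M * q * q))} {resZ : Z →+* AdjoinRoot (vertBar q β ρ)}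

set_option maxHeartbeats 4000000 in
/-- **(N1-INST) The data of the node `nT e` of `S''`** (`cInf` at `z₁ e` —— `z e` at `ptIBar`),
on the raw tube of the split sheet `W = U_g / α₂(-(α g - (β g')^q)) ≡ 1` over the outer node of
`S'ref_a` at `e`. -/
def nodeOutT
    (H : letI := algebraAlong (alpha2 M q)
      haveI := isScalarTower_along (alpha2 M q)
      haveI : Module.Finite (Fb (M * q)) (Fb (M * q * q)) :=
        Fermat.Agent.Hecke.finiteAlong_heckeAlphaBar (M * q) q
      SheetHyp (levelsOutA B hB hqM h2 h3 e) (splitW M q g g') (1 : B))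
    (Hv : letI := algebraAlong (alpha2 M q)
      VertComp (core (DtM B hB hqM) e) (gaugeA q B hB hqM e) (admA B hB hqM h2 h3 e).1
        (admA B hB hqM h2 h3 e).2 Z resZ
        (Ug M q g / alpha2 M q (algebraMap Kb (Fb (M * q)) (gaugeA q B hB hqM e))))
    (hβ : β ≠ 0) (hρ : ρ ≠ 0)
    (hred : IsRed (core (DtM B hB hqM) e) (gaugeA q B hB hqM e)
      ((gaugeA q B hB hqM e)⁻¹ • (heckeAlphaBar Kb M q g - heckeBetaBar Kb M q g' ^ q))
      (RatFunc.C β * RatFunc.X)) :
    letI := algebraAlong (alpha2 M q)
    haveI := isScalarTower_along (alpha2 M q)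
    haveI : Module.Finite (Fb (M * q)) (Fb (M * q * q)) :=
      Fermat.Agent.Hecke.finiteAlong_heckeAlphaBar (M * q) q
    NodeOut B (residue B) (w1 M B hB) (resInf B hB hqM) (z₁ (chartDataModular B hB hqM) e)
      Z resZ (ptIBar q hβ hρ)
      (coverTube B
        (tube (srefM (DtM B hB hqM) (gaugeA q B hB hqM) (admA B hB hqM h2 h3))
          (outer (inputs (DtM B hB hqM)) (gaugeA q B hB hqM) (admA B hB hqM h2 h3) e))
        (splitW M q g g') (1 : B))
      (idxOutA B hB hqM h2 h3 e) := by
  letI := algebraAlong (alpha2 M q)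
  haveI := isScalarTower_along (alpha2 M q)
  haveI : Module.Finite (Fb (M * q)) (Fb (M * q * q)) :=
    Fermat.Agent.Hecke.finiteAlong_heckeAlphaBar (M * q) q
  exact nodeOutA B hB hqM h2 h3 e H (coverComp_cInf B hB hqM P)
    (coverComp_ze B g g' Hv hβ hρ hred) (ord_algebraMap_cInf B hB hqM P)
    (Fermat.Agent.BR3.SplitCompsMod.ord_algebraMap_ptIBar q hβ hρ)

section Lemmas

variable
    (H : letI := algebraAlong (alpha2 M q)
      haveI := isScalarTower_along (alpha2 M q)
      haveI : Module.Finite (Fb (M * q)) (Fb (M * q * q)) :=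
        Fermat.Agent.Hecke.finiteAlong_heckeAlphaBar (M * q) q
      SheetHyp (levelsOutA B hB hqM h2 h3 e) (splitW M q g g') (1 : B))
    (Hv : letI := algebraAlong (alpha2 M q)
      VertComp (core (DtM B hB hqM) e) (gaugeA q B hB hqM e) (admA B hB hqM h2 h3 e).1
        (admA B hB hqM h2 h3 e).2 Z resZ
        (Ug M q g / alpha2 M q (algebraMap (AlgebraicClosure ℚ) (Fb (M * q))
          (gaugeA q B hB hqM e))))
    (hβ : β ≠ 0) (hρ : ρ ≠ 0)
    (hred : IsRed (core (DtM B hB hqM) e) (gaugeA q B hB hqM e)
      ((gaugeA q B hB hqM e)⁻¹ •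
        (heckeAlphaBar (AlgebraicClosure ℚ) M q g - heckeBetaBar (AlgebraicClosure ℚ) M q g' ^ q))
      (RatFunc.C β * RatFunc.X))

set_option maxHeartbeats 4000000 in
/-- **(G3) `hT`** : the thickness of the levels of `nT e` is the gauge `gaugeA e` -/
theorem nodeOutT_thick :
    (nodeOutT B hB hqM h2 h3 e P H Hv hβ hρ hred).L.thick = gaugeA q B hB hqM e := by
  letI := algebraAlong (alpha2 M q)
  haveI := isScalarTower_along (alpha2 M q)
  haveI : Module.Finite (Fb (M * q)) (Fb (M * q * q)) :=
    Fermat.Agent.Hecke.finiteAlong_heckeAlphaBar (M * q) q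
  exact nodeOutA_thick B hB hqM h2 h3 e H (coverComp_cInf B hB hqM P)
    (coverComp_ze B g g' Hv hβ hρ hred) (ord_algebraMap_cInf B hB hqM P)
    (Fermat.Agent.BR3.SplitCompsMod.ord_algebraMap_ptIBar q hβ hρ)

set_option maxHeartbeats 4000000 in
/-- the coordinate of the levels of `nT e` is `α₂ u_e` -/
theorem nodeOutT_u :
    (nodeOutT B hB hqM h2 h3 e P H Hv hβ hρ hred).L.u =
      alpha2 M q (annulusCoord (DtM B hB hqM) e) := by
  letI := algebraAlong (alpha2 M q)
  haveI := isScalarTower_along (alpha2 M q)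
  haveI : Module.Finite (Fb (M * q)) (Fb (M * q * q)) :=
    Fermat.Agent.Hecke.finiteAlong_heckeAlphaBar (M * q) q
  exact nodeOutA_u B hB hqM h2 h3 e H (coverComp_cInf B hB hqM P)
    (coverComp_ze B g g' Hv hβ hρ hred) (ord_algebraMap_cInf B hB hqM P)
    (Fermat.Agent.BR3.SplitCompsMod.ord_algebraMap_ptIBar q hβ hρ)

set_option maxHeartbeats 4000000 in
/-- the levels of `nT e` are the levels of the split sheet -/
theorem nodeOutT_L :
    letI := algebraAlong (alpha2 M q)
    haveI := isScalarTower_along (alpha2 M q)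
    haveI : Module.Finite (Fb (M * q)) (Fb (M * q * q)) :=
      Fermat.Agent.Hecke.finiteAlong_heckeAlphaBar (M * q) q
    (nodeOutT B hB hqM h2 h3 e P H Hv hβ hρ hred).L = SheetHyp.levels H := rfl

end Lemmas

end Fermat.Agent.BR3.SplitNode
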