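import Mathlib
import Fermat.Agent.BR3.SplitNode.ModT
import Fermat.Agent.BR3.SplitModularRef

/-!
# Program C (S36), node (N1-INST), assembly, part 8: the node `nT e` with the sheet hypotheses
discharged

helper19's `SplitModularRef.sheetHyp_outerRef` (the split sheet over the levels of the outer node
of `S'ref`, `g`-frame) at the gauge `gaugeA` of the integrator gives the hypothesis `H` of
`nodeOutT`:

* `sheetHyp_levelsOutA` : `SheetHyp (levelsOutA B hB hqM h2 h3 e) (splitW M q g g') 1` (along `α₂`);
* **`nodeT`** : the bundle `NodeOut` of the node `nT e` of `S''` from a twisted triple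
  `P : IsSSParam B hB hqM e g g' g''` and the clauses of the vertical component
  (`Hv : VertComp …`, `hred`) ONLY; `nodeT_thick` ((G3) `hT`), `nodeT_u`, `nodeT_annSheet`
  (the annulus sheet of degree one, `XT` of `fibreOver_outer_raw`), `nodeT_value`
  (`hWT`: the value of the generator on the tube).
-/

set_option autoImplicit false
set_option linter.unusedSectionVars false
set_option linter.style.haveILetI false
set_option synthInstance.maxHeartbeats 400000

noncomputable section

/- S36 build-time patch: file-local shortcut instances. They only shorten instance search;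
each is the instance that the search finds anyway (reducible, same terms after unfolding). -/
local instance (priority := 100000) Fermat.Agent.BR3.FastInst.instAlgFullC_SplitNode_ModFinal
    {k : Type*} [Field k] (N : ℕ) :
    Algebra k ↥(ModularCurve.modularFunctionFieldFullC k N) := inferInstance
local instance (priority := 100000) Fermat.Agent.BR3.FastInst.instFieldFullC_SplitNode_ModFinal
    {k : Type*} [Field k] (N : ℕ) :
    Field ↥(ModularCurve.modularFunctionFieldFullC k N) := inferInstance
local instance (priority := 100000) Fermat.Agent.BR3.FastInst.instAlgLaurent_SplitNode_ModFinal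
    {k : Type*} [Field k] : Algebra k (LaurentSeries k) := inferInstance


namespace Fermat.Agent.BR3.SplitNode

open ModularCurve AlgebraicCurve IsLocalRing Polynomial
open Fermat.Agent.Red Fermat.Agent.Val Fermat.Agent.X0 Fermat.Agent.Hecke
open Fermat.Agent.BR.SS Fermat.Agent.BR.Refine Fermat.Agent.BR.TwoVal Fermat.Agent.BR.TwoValInst
open Fermat.Agent.BR.Circle Fermat.Agent.BR.S0 Fermat.Agent.BR.S0.PointDict Fermat.Agent.BR.P1
open Fermat.Agent.BR.S0.RedModular Fermat.Agent.BR.Final Fermat.Agent.BR.Inst.AnnulusInstFinal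
open Fermat.Agent.BR2.SetupOfData Fermat.Agent.BR3.CircleN Fermat.Agent.BR3.SRef
open Fermat.Agent.BR3.SRef.Modular Fermat.Agent.BR3.SDD.Modular Fermat.Agent.BR3.SubAnnChart
open Fermat.Agent.BR3.SplitLevels Fermat.Agent.BR3.SplitBranch Fermat.Agent.BR3.CoverSmooth
open Fermat.Agent.BR3.FibreProd Fermat.Agent.BR3.HeckePoly Fermat.Agent.BR3.SSParam
open Fermat.Agent.BR3.VertResidue Fermat.Agent.BR3.VertSheet Fermat.Agent.BR3.VertPtsDef
open Fermat.Agent.BR3.SplitCompsCInf Fermat.Agent.BR3.CInfRes Fermat.Agent.BR3.SplitModularRef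

local notation "Kb" => AlgebraicClosure ℚ

variable {M q : ℕ} [NeZero M] [hq : Fact q.Prime]
variable (B : ValuationSubring (AlgebraicClosure ℚ)) (hB : B.LiesOverPrime q) (hqM : ¬ q ∣ M)
variable [IsAlgClosed (ResidueField B)]

local notation "kB" => IsLocalRing.ResidueField B
local notation "FtM" => modularFunctionFieldFullC (IsLocalRing.ResidueField B) M

/-- (shortcut instance) -/
local instance (priority := 100000) instAlgebraFtMShortcutSNF :
    Algebra (IsLocalRing.ResidueField B)
      (modularFunctionFieldFullC (IsLocalRing.ResidueField B) M) :=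
  inferInstance

variable (h2 : nuTwo M = 0) (h3 : nuThree M = 0) (e : Crossing (chartDataModular B hB hqM))
  [CharP (ResidueField B) q]
  {g g' g'' : Fb M} (P : IsSSParam B hB hqM e g g' g'')

include P in
set_option maxHeartbeats 4000000 in
/-- **The hypotheses of the split sheet `nT e` over the levels of the outer node of `S'ref_a`**
(helper19's `sheetHyp_outerRef` at the gauge of the integrator). -/
theorem sheetHyp_levelsOutA :
    letI := algebraAlong (alpha2 M q)
    haveI := isScalarTower_along (alpha2 M q)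
    haveI : Module.Finite (Fb (M * q)) (Fb (M * q * q)) :=
      Fermat.Agent.Hecke.finiteAlong_heckeAlphaBar (M * q) q
    SheetHyp (levelsOutA B hB hqM h2 h3 e) (splitW M q g g') (1 : B) :=
  sheetHyp_outerRef B hB hqM (gaugeA q B hB hqM) (admA B hB hqM h2 h3) e
    (hg_of_isGaugeA B hB hqM (gaugeA q B hB hqM) e (isGaugeA B hB hqM h2 h3)) h2 h3 P

variable [PerfectField (ResidueField B)]
  {β ρ : ResidueField B} [Fact (Irreducible (vertBar q β ρ))]
  {Z : ValuationSubring (Fb (M * q * q))} {resZ : Z →+* AdjoinRoot (vertBar q β ρ)}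
  (Hv : letI := algebraAlong (alpha2 M q)
    VertComp (core (DtM B hB hqM) e) (gaugeA q B hB hqM e) (admA B hB hqM h2 h3 e).1
      (admA B hB hqM h2 h3 e).2 Z resZ
      (Ug M q g / alpha2 M q (algebraMap (AlgebraicClosure ℚ) (Fb (M * q))
        (gaugeA q B hB hqM e))))
  (hβ : β ≠ 0) (hρ : ρ ≠ 0)
  (hred : IsRed (core (DtM B hB hqM) e) (gaugeA q B hB hqM e)
    ((gaugeA q B hB hqM e)⁻¹ •
      (heckeAlphaBar (AlgebraicClosure ℚ) M q g - heckeBetaBar (AlgebraicClosure ℚ) M q g' ^ q))
    (RatFunc.C β * RatFunc.X))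

set_option maxHeartbeats 4000000 in
/-- **(N1-INST) The node `nT e` of `S''`** (`cInf` at `z₁ e` —— `z e` at `ptIBar`) from a twisted
triple and the clauses of the vertical component. -/
def nodeT :
    letI := algebraAlong (alpha2 M q)
    haveI := isScalarTower_along (alpha2 M q)
    haveI : Module.Finite (Fb (M * q)) (Fb (M * q * q)) :=
      Fermat.Agent.Hecke.finiteAlong_heckeAlphaBar (M * q) q
    NodeOut B (residue B) (w1 M B hB) (resInf B hB hqM) (z₁ (chartDataModular B hB hqM) e)
      Z resZ (ptIBar q hβ hρ)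
      (coverTube B
        (tube (srefM (DtM B hB hqM) (gaugeA q B hB hqM) (admA B hB hqM h2 h3))
          (outer (inputs (DtM B hB hqM)) (gaugeA q B hB hqM) (admA B hB hqM h2 h3) e))
        (splitW M q g g') (1 : B))
      (idxOutA B hB hqM h2 h3 e) :=
  nodeOutT B hB hqM h2 h3 e P (sheetHyp_levelsOutA B hB hqM h2 h3 e P) Hv hβ hρ hred

set_option maxHeartbeats 4000000 in
/-- **(G3) `hT`** : the thickness of the levels of `nT e` is the gauge -/
theorem nodeT_thick :
    (nodeT B hB hqM h2 h3 e P Hv hβ hρ hred).L.thick = gaugeA q B hB hqM e :=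
  nodeOutT_thick B hB hqM h2 h3 e P (sheetHyp_levelsOutA B hB hqM h2 h3 e P) Hv hβ hρ hred

set_option maxHeartbeats 4000000 in
/-- the coordinate of the levels of `nT e` is `α₂ u_e` -/
theorem nodeT_u :
    (nodeT B hB hqM h2 h3 e P Hv hβ hρ hred).L.u =
      alpha2 M q (annulusCoord (DtM B hB hqM) e) :=
  nodeOutT_u B hB hqM h2 h3 e P (sheetHyp_levelsOutA B hB hqM h2 h3 e P) Hv hβ hρ hred

set_option maxHeartbeats 4000000 in
/-- **the node chart `chT e` of `caseInputOfRaw`** -/
def chartT :
    letI := algebraAlong (alpha2 M q)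
    haveI := isScalarTower_along (alpha2 M q)
    haveI : Module.Finite (Fb (M * q)) (Fb (M * q * q)) :=
      Fermat.Agent.Hecke.finiteAlong_heckeAlphaBar (M * q) q
    NodeChart B (w1 M B hB) Z (resInf B hB hqM) resZ (z₁ (chartDataModular B hB hqM) e)
      (ptIBar q hβ hρ)
      (coverTube B
        (tube (srefM (DtM B hB hqM) (gaugeA q B hB hqM) (admA B hB hqM h2 h3))
          (outer (inputs (DtM B hB hqM)) (gaugeA q B hB hqM) (admA B hB hqM h2 h3) e))
        (splitW M q g g') (1 : B)) := by
  letI := algebraAlong (alpha2 M q)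
  haveI := isScalarTower_along (alpha2 M q)
  haveI : Module.Finite (Fb (M * q)) (Fb (M * q * q)) :=
    Fermat.Agent.Hecke.finiteAlong_heckeAlphaBar (M * q) q
  exact (nodeT B hB hqM h2 h3 e P Hv hβ hρ hred).chart
    Fermat.Agent.BR3.SplitNodeChart.residue_eq_zero_of_lt
    (coverComp_cInf B hB hqM P).res_nonunits (coverComp_ze B g g' Hv hβ hρ hred).res_nonunits

set_option maxHeartbeats 4000000 in
/-- the ring of the chart `chT e` is the union of the levels of `nT e` -/
theorem mem_chartT_R_iff (y : Fb (M * q * q)) :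
    y ∈ (chartT B hB hqM h2 h3 e P Hv hβ hρ hred).R ↔
      ∃ i, y ∈ ((nodeT B hB hqM h2 h3 e P Hv hβ hρ hred).L.level i).R := by
  letI := algebraAlong (alpha2 M q)
  haveI := isScalarTower_along (alpha2 M q)
  haveI : Module.Finite (Fb (M * q)) (Fb (M * q * q)) :=
    Fermat.Agent.Hecke.finiteAlong_heckeAlphaBar (M * q) q
  exact (nodeT B hB hqM h2 h3 e P Hv hβ hρ hred).mem_chart_R_iff
    Fermat.Agent.BR3.SplitNodeChart.residue_eq_zero_of_lt
    (coverComp_cInf B hB hqM P).res_nonunits (coverComp_ze B g g' Hv hβ hρ hred).res_nonunits y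

include P in
set_option maxHeartbeats 4000000 in
/-- **the annulus sheet of degree one of `nT e` along `α₂`** (`XT` of `fibreOver_outer_raw`):
`y₀ = α₂ u_e`, `thick' = gaugeA e`. -/
theorem nonempty_annSheet_nodeT :
    letI := algebraAlong (alpha2 M q)
    haveI := isScalarTower_along (alpha2 M q)
    haveI : Module.Finite (Fb (M * q)) (Fb (M * q * q)) :=
      Fermat.Agent.Hecke.finiteAlong_heckeAlphaBar (M * q) q
    Nonempty (Fermat.Agent.BR3.SDD.Partition.AnnSheet B
      (coverTube B
        (tube (srefM (DtM B hB hqM) (gaugeA q B hB hqM) (admA B hB hqM h2 h3))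
          (outer (inputs (DtM B hB hqM)) (gaugeA q B hB hqM) (admA B hB hqM h2 h3) e))
        (splitW M q g g') (1 : B))
      (alpha2 M q (annulusCoord (DtM B hB hqM) e)) (gaugeA q B hB hqM e) 1) := by
  letI := algebraAlong (alpha2 M q)
  haveI := isScalarTower_along (alpha2 M q)
  haveI : Module.Finite (Fb (M * q)) (Fb (M * q * q)) :=
    Fermat.Agent.Hecke.finiteAlong_heckeAlphaBar (M * q) q
  have A := Fermat.Agent.BR3.SDD.AnnSheetsHoriz.annSheet_split
    (sheetHyp_levelsOutA B hB hqM h2 h3 e P)
  rw [levelsOutA_u, levelsOutA_thick] at A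
  exact ⟨A⟩

end Fermat.Agent.BR3.SplitNode
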