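import Mathlib
import Fermat.Agent.BR3.SplitNode.Mod
import Fermat.Agent.BR3.SplitCompsModB
import Fermat.Agent.BR3.SplitCompsCZero

/-!
# Program C (S36), node (N3-INST), assembly: the node `nW e` (`z e` —— `cZero`) of `S''`

The mirror of `SplitNode/ModT.lean` (the node `nT e`).  Along `b = β₂` the node `nW e` lies over the
INNER node of `S'ref_b` at the swapped crossing `e' = Fr e` (between the exceptional circle
component `E^b_{e'}`, branch `T_b = 0`, and `'et'`, branch `z₂ e'`).

`nodeOutW` : the bundle `NodeOut` (levels, branch data on the vertical component `(Z, resZ)` at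
`ptZBar` and on `cZero` at `z₂ e'`, `v ≡ 0` on `z e`, `u ≡ 0` on `cZero`, uniformizers) of the node
`nW e` on the raw tube `coverTube B (tube S'ref_b (inner e')) (splitWB M q g g') 1` (along `β₂`),
from

* `H : SheetHyp (levelsInB … e') (splitWB M q g g') 1` (the split sheet over the inner levels),
* the `a`-side clauses `Hv : VertComp …`, `hred` and the `b`-side clauses `hcomap`, `φ`, `hφ`,
  `hφC`, `hmirror` of the vertical component (the `z e` package, `SDD.Modular.ZePack`),
* `P' : IsSSParam B hB hqM e' g' g₀ g` (the second triple of the chain),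
* helper13's `SplitCompsModB.coverComp_zeB`, `ord_mirror_ptZBar`, helper1's
  `SplitCompsCZero.coverComp_cZero'`, `ord_algebraMap_cZero`.

Its fields are the fields `LW e`, `W₁ e`, `W₂ e`, `W_v_src e`, `W_u_tgt e`, `W_unif₁ e`,
`W_unif₂ e` of `SDD.Partition.CaseCircle.ofRaw`; `chartW …` is `chW e` of `caseInputOfRaw`;
`nodeOutW_thick` is (G3) `hW`; `nodeOutW_u` the coordinate `β₂ (b₀⁻¹ • u_{e'})`.
-/

set_option autoImplicit false
set_option linter.unusedSectionVars false
set_option linter.style.haveILetI false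
set_option synthInstance.maxHeartbeats 400000

noncomputable section

/- S36 build-time patch: file-local shortcut instances. They only shorten instance search;
each is the instance that the search finds anyway (reducible, same terms after unfolding). -/
local instance (priority := 100000) Fermat.Agent.BR3.FastInst.instAlgFullC_SplitNode_ModW
    {k : Type*} [Field k] (N : ℕ) :
    Algebra k ↥(ModularCurve.modularFunctionFieldFullC k N) := inferInstance
local instance (priority := 100000) Fermat.Agent.BR3.FastInst.instFieldFullC_SplitNode_ModW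
    {k : Type*} [Field k] (N : ℕ) :
    Field ↥(ModularCurve.modularFunctionFieldFullC k N) := inferInstance
local instance (priority := 100000) Fermat.Agent.BR3.FastInst.instAlgLaurent_SplitNode_ModW
    {k : Type*} [Field k] : Algebra k (LaurentSeries k) := inferInstance


namespace Fermat.Agent.BR3.SplitNode

open ModularCurve AlgebraicCurve IsLocalRing Polynomial
open Fermat.Agent.Red Fermat.Agent.Val Fermat.Agent.X0 Fermat.Agent.Hecke
open Fermat.Agent.BR.SS Fermat.Agent.BR.Refine Fermat.Agent.BR.TwoVal Fermat.Agent.BR.TwoValInst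
open Fermat.Agent.BR.Circle Fermat.Agent.BR.S0 Fermat.Agent.BR.S0.PointDict Fermat.Agent.BR.P1
open Fermat.Agent.BR.S0.RedModular Fermat.Agent.BR.Final Fermat.Agent.BR.Inst.AnnulusInstFinal
open Fermat.Agent.BR2.SetupOfData Fermat.Agent.BR3.CircleN Fermat.Agent.BR3.SRef
open Fermat.Agent.BR3.SRef.Modular Fermat.Agent.BR3.SDD.Modular Fermat.Agent.BR3.SubAnnChart
open Fermat.Agent.BR3.SplitLevels Fermat.Agent.BR3.SplitBranch Fermat.Agent.BR3.CoverSmooth
open Fermat.Agent.BR3.FibreProd Fermat.Agent.BR3.HeckePoly Fermat.Agent.BR3.SSParam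
open Fermat.Agent.BR3.VertResidue Fermat.Agent.BR3.VertSheet Fermat.Agent.BR3.VertPtsDef
open Fermat.Agent.BR3.SplitCompsModB Fermat.Agent.BR3.SplitCompsCZero

local notation "Kb" => AlgebraicClosure ℚ

variable {M q : ℕ} [NeZero M] [hq : Fact q.Prime]
variable (B : ValuationSubring (AlgebraicClosure ℚ)) (hB : B.LiesOverPrime q) (hqM : ¬ q ∣ M)
variable [IsAlgClosed (ResidueField B)]

local notation "kB" => IsLocalRing.ResidueField B
local notation "FtM" => modularFunctionFieldFullC (IsLocalRing.ResidueField B) M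

/-- (shortcut instance) -/
local instance (priority := 100000) instAlgebraFtMShortcutSNW :
    Algebra (IsLocalRing.ResidueField B)
      (modularFunctionFieldFullC (IsLocalRing.ResidueField B) M) :=
  inferInstance

variable (h2 : nuTwo M = 0) (h3 : nuThree M = 0) (e' : Crossing (chartDataModular B hB hqM))
  [CharP (ResidueField B) q] [PerfectField (ResidueField B)]
  {g₀ g' g : Fb M} (P' : IsSSParam B hB hqM e' g' g₀ g)
  {Ta : Set (Place Kb (Fb (M * q)))} {Ca : AnnulusCore B Ta} {a₀ : Kb}
  {ha1 : B.valuation Ca.thick < B.valuation a₀} {ha2 : B.valuation a₀ < 1}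
  {β ρ : ResidueField B} [Fact (Irreducible (vertBar q β ρ))]
  {Z : ValuationSubring (Fb (M * q * q))} {resZ : Z →+* AdjoinRoot (vertBar q β ρ)}

set_option maxHeartbeats 4000000 in
/-- **(N3-INST) The data of the node `nW e` of `S''`** (`z e` at `ptZBar` —— `cZero` at `z₂ e'`,
`e' = Fr e`), on the raw tube of the split sheet `W_b = U_g / β₂ (β g - (α g')^q) ≡ 1` over the
inner node of `S'ref_b` at `e'`. -/
def nodeOutW
    (H : letI := algebraAlong (beta2 M q)
      haveI := isScalarTower_along (beta2 M q)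
      haveI : Module.Finite (Fb (M * q)) (Fb (M * q * q)) :=
        Fermat.Agent.Hecke.finiteAlong_heckeBetaBar (M * q) q
      SheetHyp (levelsInB B hB hqM h2 h3 e') (splitWB M q g g') (1 : B))
    (Hv : letI := algebraAlong (alpha2 M q)
      VertComp Ca a₀ ha1 ha2 Z resZ
        (Ug M q g / alpha2 M q (algebraMap Kb (Fb (M * q)) a₀)))
    (hβ : β ≠ 0) (hρ : ρ ≠ 0)
    (hred : IsRed Ca a₀ (a₀⁻¹ • (heckeAlphaBar Kb M q g - heckeBetaBar Kb M q g' ^ q))
      (RatFunc.C β * RatFunc.X))
    (hcomap : Z.comap (beta2 M q : Fb (M * q) →+* Fb (M * q * q)) =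
      circleRing (core (DtM B hB hqM) e') (gaugeB q B hB hqM e') (admB B hB hqM h2 h3 e').1
        (admB B hB hqM h2 h3 e').2)
    (φ : RatFunc (ResidueField B) →+* AdjoinRoot (vertBar q β ρ))
    (hφ : ∀ (y : Fb (M * q))
      (hy : y ∈ circleRing (core (DtM B hB hqM) e') (gaugeB q B hB hqM e')
        (admB B hB hqM h2 h3 e').1 (admB B hB hqM h2 h3 e').2) (h : beta2 M q y ∈ Z),
      resZ ⟨beta2 M q y, h⟩ =
        φ (circleRes (core (DtM B hB hqM) e') (gaugeB q B hB hqM e') (admB B hB hqM h2 h3 e').1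
          (admB B hB hqM h2 h3 e').2 ⟨y, hy⟩))
    (hφC : ∀ c : ResidueField B, φ (RatFunc.C c) = AdjoinRoot.of (vertBar q β ρ) (RatFunc.C c))
    {β' ω : ResidueField B} (hβ' : β' ≠ 0) (hω : ω ≠ 0)
    (hmirror : φ (RatFunc.C β' * RatFunc.X) *
      (AdjoinRoot.root (vertBar q β ρ) +
        AdjoinRoot.of (vertBar q β ρ) (RatFunc.C β * RatFunc.X)) =
      AdjoinRoot.of (vertBar q β ρ) (RatFunc.C ω)) :
    letI := algebraAlong (beta2 M q)
    haveI := isScalarTower_along (beta2 M q)
    haveI : Module.Finite (Fb (M * q)) (Fb (M * q * q)) :=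
      Fermat.Agent.Hecke.finiteAlong_heckeBetaBar (M * q) q
    NodeOut B (residue B) Z resZ (ptZBar q hβ hρ)
      (Fermat.Agent.BR3.CZero.cZero B hB hqM) (Fermat.Agent.BR3.CZeroRes.resZ B hB hqM)
      (z₂ (chartDataModular B hB hqM) e')
      (coverTube B
        (tube (srefM (DtM B hB hqM) (gaugeB q B hB hqM) (admB B hB hqM h2 h3))
          (inner (inputs (DtM B hB hqM)) (gaugeB q B hB hqM) (admB B hB hqM h2 h3) e'))
        (splitWB M q g g') (1 : B))
      (idxInB B hB hqM h2 h3 e') := by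
  letI := algebraAlong (beta2 M q)
  haveI := isScalarTower_along (beta2 M q)
  haveI : Module.Finite (Fb (M * q)) (Fb (M * q * q)) :=
    Fermat.Agent.Hecke.finiteAlong_heckeBetaBar (M * q) q
  letI : Algebra (RatFunc (ResidueField B)) (AdjoinRoot (vertBar q β ρ)) := RingHom.toAlgebra φ
  haveI : @IsScalarTower (ResidueField B) (RatFunc (ResidueField B))
      (AdjoinRoot (vertBar q β ρ)) Algebra.toSMul (RingHom.toAlgebra φ).toSMul Algebra.toSMul :=
    isScalarTower_mirror q φ hφC
  exact nodeOutB B hB hqM h2 h3 e' H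
    (coverComp_zeB B g g' Hv hβ hρ hred hcomap φ hφ hφC hβ' hω hmirror)
    (coverComp_cZero B hB hqM P')
    (fun t => ord_mirror_ptZBar q φ hφC hβ' hω hmirror hβ hρ t)
    (fun t => ord_algebraMap_cZero B hB hqM P' t)

section Lemmas

variable
    (H : letI := algebraAlong (beta2 M q)
      haveI := isScalarTower_along (beta2 M q)
      haveI : Module.Finite (Fb (M * q)) (Fb (M * q * q)) :=
        Fermat.Agent.Hecke.finiteAlong_heckeBetaBar (M * q) q
      SheetHyp (levelsInB B hB hqM h2 h3 e') (splitWB M q g g') (1 : B))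
    (Hv : letI := algebraAlong (alpha2 M q)
      VertComp Ca a₀ ha1 ha2 Z resZ
        (Ug M q g / alpha2 M q (algebraMap Kb (Fb (M * q)) a₀)))
    (hβ : β ≠ 0) (hρ : ρ ≠ 0)
    (hred : IsRed Ca a₀ (a₀⁻¹ • (heckeAlphaBar Kb M q g - heckeBetaBar Kb M q g' ^ q))
      (RatFunc.C β * RatFunc.X))
    (hcomap : Z.comap (beta2 M q : Fb (M * q) →+* Fb (M * q * q)) =
      circleRing (core (DtM B hB hqM) e') (gaugeB q B hB hqM e') (admB B hB hqM h2 h3 e').1
        (admB B hB hqM h2 h3 e').2)
    (φ : RatFunc (ResidueField B) →+* AdjoinRoot (vertBar q β ρ))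
    (hφ : ∀ (y : Fb (M * q))
      (hy : y ∈ circleRing (core (DtM B hB hqM) e') (gaugeB q B hB hqM e')
        (admB B hB hqM h2 h3 e').1 (admB B hB hqM h2 h3 e').2) (h : beta2 M q y ∈ Z),
      resZ ⟨beta2 M q y, h⟩ =
        φ (circleRes (core (DtM B hB hqM) e') (gaugeB q B hB hqM e') (admB B hB hqM h2 h3 e').1
          (admB B hB hqM h2 h3 e').2 ⟨y, hy⟩))
    (hφC : ∀ c : ResidueField B, φ (RatFunc.C c) = AdjoinRoot.of (vertBar q β ρ) (RatFunc.C c))
    {β' ω : ResidueField B} (hβ' : β' ≠ 0) (hω : ω ≠ 0)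
    (hmirror : φ (RatFunc.C β' * RatFunc.X) *
      (AdjoinRoot.root (vertBar q β ρ) +
        AdjoinRoot.of (vertBar q β ρ) (RatFunc.C β * RatFunc.X)) =
      AdjoinRoot.of (vertBar q β ρ) (RatFunc.C ω))

set_option maxHeartbeats 4000000 in
/-- the levels of `nW e` are the levels of the split sheet -/
theorem nodeOutW_L :
    letI := algebraAlong (beta2 M q)
    haveI := isScalarTower_along (beta2 M q)
    haveI : Module.Finite (Fb (M * q)) (Fb (M * q * q)) :=
      Fermat.Agent.Hecke.finiteAlong_heckeBetaBar (M * q) q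
    (nodeOutW B hB hqM h2 h3 e' P' H Hv hβ hρ hred hcomap φ hφ hφC hβ' hω hmirror).L =
      SheetHyp.levels H := rfl

set_option maxHeartbeats 4000000 in
/-- **(G3) `hW`** : the thickness of the levels of `nW e` (at `e' = Fr e`) -/
theorem nodeOutW_thick :
    (nodeOutW B hB hqM h2 h3 e' P' H Hv hβ hρ hred hcomap φ hφ hφC hβ' hω hmirror).L.thick =
      (gaugeB q B hB hqM e')⁻¹ * thick (DtM B hB hqM) e' := by
  letI := algebraAlong (beta2 M q)
  haveI := isScalarTower_along (beta2 M q)
  haveI : Module.Finite (Fb (M * q)) (Fb (M * q * q)) :=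
    Fermat.Agent.Hecke.finiteAlong_heckeBetaBar (M * q) q
  letI : Algebra (RatFunc (ResidueField B)) (AdjoinRoot (vertBar q β ρ)) := RingHom.toAlgebra φ
  haveI : @IsScalarTower (ResidueField B) (RatFunc (ResidueField B))
      (AdjoinRoot (vertBar q β ρ)) Algebra.toSMul (RingHom.toAlgebra φ).toSMul Algebra.toSMul :=
    isScalarTower_mirror q φ hφC
  exact nodeOutB_thick B hB hqM h2 h3 e' H
    (coverComp_zeB B g g' Hv hβ hρ hred hcomap φ hφ hφC hβ' hω hmirror)
    (coverComp_cZero B hB hqM P')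
    (fun t => ord_mirror_ptZBar q φ hφC hβ' hω hmirror hβ hρ t)
    (fun t => ord_algebraMap_cZero B hB hqM P' t)

set_option maxHeartbeats 4000000 in
/-- the coordinate of the levels of `nW e` is `β₂ (b₀⁻¹ • u_{e'})` -/
theorem nodeOutW_u :
    (nodeOutW B hB hqM h2 h3 e' P' H Hv hβ hρ hred hcomap φ hφ hφC hβ' hω hmirror).L.u =
      beta2 M q ((gaugeB q B hB hqM e')⁻¹ • annulusCoord (DtM B hB hqM) e') := by
  letI := algebraAlong (beta2 M q)
  haveI := isScalarTower_along (beta2 M q)
  haveI : Module.Finite (Fb (M * q)) (Fb (M * q * q)) :=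
    Fermat.Agent.Hecke.finiteAlong_heckeBetaBar (M * q) q
  letI : Algebra (RatFunc (ResidueField B)) (AdjoinRoot (vertBar q β ρ)) := RingHom.toAlgebra φ
  haveI : @IsScalarTower (ResidueField B) (RatFunc (ResidueField B))
      (AdjoinRoot (vertBar q β ρ)) Algebra.toSMul (RingHom.toAlgebra φ).toSMul Algebra.toSMul :=
    isScalarTower_mirror q φ hφC
  exact nodeOutB_u B hB hqM h2 h3 e' H
    (coverComp_zeB B g g' Hv hβ hρ hred hcomap φ hφ hφC hβ' hω hmirror)
    (coverComp_cZero B hB hqM P')
    (fun t => ord_mirror_ptZBar q φ hφC hβ' hω hmirror hβ hρ t)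
    (fun t => ord_algebraMap_cZero B hB hqM P' t)

set_option maxHeartbeats 4000000 in
/-- **the node chart `chW e` of `caseInputOfRaw`** -/
def chartW :
    letI := algebraAlong (beta2 M q)
    haveI := isScalarTower_along (beta2 M q)
    haveI : Module.Finite (Fb (M * q)) (Fb (M * q * q)) :=
      Fermat.Agent.Hecke.finiteAlong_heckeBetaBar (M * q) q
    NodeChart B Z (Fermat.Agent.BR3.CZero.cZero B hB hqM) resZ
      (Fermat.Agent.BR3.CZeroRes.resZ B hB hqM) (ptZBar q hβ hρ)
      (z₂ (chartDataModular B hB hqM) e')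
      (coverTube B
        (tube (srefM (DtM B hB hqM) (gaugeB q B hB hqM) (admB B hB hqM h2 h3))
          (inner (inputs (DtM B hB hqM)) (gaugeB q B hB hqM) (admB B hB hqM h2 h3) e'))
        (splitWB M q g g') (1 : B)) := by
  letI := algebraAlong (beta2 M q)
  haveI := isScalarTower_along (beta2 M q)
  haveI : Module.Finite (Fb (M * q)) (Fb (M * q * q)) :=
    Fermat.Agent.Hecke.finiteAlong_heckeBetaBar (M * q) q
  letI : Algebra (RatFunc (ResidueField B)) (AdjoinRoot (vertBar q β ρ)) := RingHom.toAlgebra φ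
  exact (nodeOutW B hB hqM h2 h3 e' P' H Hv hβ hρ hred hcomap φ hφ hφC hβ' hω hmirror).chart
    Fermat.Agent.BR3.SplitNodeChart.residue_eq_zero_of_lt
    (coverComp_zeB B g g' Hv hβ hρ hred hcomap φ hφ hφC hβ' hω hmirror).res_nonunits
    (coverComp_cZero B hB hqM P').res_nonunits

set_option maxHeartbeats 4000000 in
/-- the ring of the chart `chW e` is the union of the levels of `nW e` -/
theorem mem_chartW_R_iff (y : Fb (M * q * q)) :
    y ∈ (chartW B hB hqM h2 h3 e' P' H Hv hβ hρ hred hcomap φ hφ hφC hβ' hω hmirror).R ↔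
      ∃ i, y ∈ ((nodeOutW B hB hqM h2 h3 e' P' H Hv hβ hρ hred hcomap φ hφ hφC hβ' hω
        hmirror).L.level i).R := by
  letI := algebraAlong (beta2 M q)
  haveI := isScalarTower_along (beta2 M q)
  haveI : Module.Finite (Fb (M * q)) (Fb (M * q * q)) :=
    Fermat.Agent.Hecke.finiteAlong_heckeBetaBar (M * q) q
  letI : Algebra (RatFunc (ResidueField B)) (AdjoinRoot (vertBar q β ρ)) := RingHom.toAlgebra φ
  exact (nodeOutW B hB hqM h2 h3 e' P' H Hv hβ hρ hred hcomap φ hφ hφC hβ' hω
    hmirror).mem_chart_R_iff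
    Fermat.Agent.BR3.SplitNodeChart.residue_eq_zero_of_lt
    (coverComp_zeB B g g' Hv hβ hρ hred hcomap φ hφ hφC hβ' hω hmirror).res_nonunits
    (coverComp_cZero B hB hqM P').res_nonunits y

include H in
set_option maxHeartbeats 4000000 in
/-- the annulus sheet of degree one of `nW e` along `β₂` (`y₀ = β₂ (b₀⁻¹ • u_{e'})`,
`thick' = b₀⁻¹ * thick e'`) -/
theorem nonempty_annSheet_nodeW_beta :
    letI := algebraAlong (beta2 M q)
    haveI := isScalarTower_along (beta2 M q)
    haveI : Module.Finite (Fb (M * q)) (Fb (M * q * q)) :=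
      Fermat.Agent.Hecke.finiteAlong_heckeBetaBar (M * q) q
    Nonempty (Fermat.Agent.BR3.SDD.Partition.AnnSheet B
      (coverTube B
        (tube (srefM (DtM B hB hqM) (gaugeB q B hB hqM) (admB B hB hqM h2 h3))
          (inner (inputs (DtM B hB hqM)) (gaugeB q B hB hqM) (admB B hB hqM h2 h3) e'))
        (splitWB M q g g') (1 : B))
      (beta2 M q ((gaugeB q B hB hqM e')⁻¹ • annulusCoord (DtM B hB hqM) e'))
      ((gaugeB q B hB hqM e')⁻¹ * thick (DtM B hB hqM) e') 1) := by
  letI := algebraAlong (beta2 M q)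
  haveI := isScalarTower_along (beta2 M q)
  haveI : Module.Finite (Fb (M * q)) (Fb (M * q * q)) :=
    Fermat.Agent.Hecke.finiteAlong_heckeBetaBar (M * q) q
  have A := Fermat.Agent.BR3.SDD.AnnSheetsHoriz.annSheet_split H
  rw [levelsInB_u, levelsInB_thick] at A
  exact ⟨A⟩

end Lemmas

end Fermat.Agent.BR3.SplitNode
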