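import Mathlib
import Fermat.Agent.BR3.SplitModularTw
import Fermat.Agent.BR3.HeckePolyB
import Fermat.Agent.BR3.SplitCompsModB
import Fermat.Agent.BR.S0.AnnulusSwap

/-!
# Program C (S36), node (N3-INST), the inputs of the split sheet of the node `nW e` along `β₂`
(the `b`-mirror of `SplitModularTw` / `SplitNode.Inputs` / `SplitNode.Sheet`)

`e'` a supersingular crossing of main's model of `X₀(M q)`, `P' : IsSSParam e' g' g₀ g` a twisted
triple with simple zeros at `e'`, `P : IsSSParam e g g' g''` (any crossing `e`; in the application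
`e' = Fr e` and `(g₀, g', g, g'')` is the chain of `SSParamChainOrd`).  Along `β₂` the function
`W_b = splitWB M q g g' = U_g / β₂ (β g - (α g')^q)` generates a split sheet (`W_b ≡ 1`) of
`X₀(M q²) → X₀(M q)` over the INNER sub-annulus `{|thick| < |u| < |ρ|}` of the tube of `e'`,
`|ρ|^(q+1) = |thick|^q`.

* abstract: `BranchComp.swap`, `coordV_mul_inv_mem` (the `v`-twin of `SplitCoord.coord_mul_inv_mem`,
  through `AnnulusLevels.swap`), `small_mem_of_v` (the small parameter `κ / c^(n+1)` when `c`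
  divides the SECOND coordinate and `|κ| = |thick'|^(n+1)`);
* `exists_kronecker_levelB` : the Kronecker shape of `PBt M q g` with all the data in the base level
  of the tube of `e'`; `v_mul_ug_inv_mem` : **`u_{g'} = β g - (α g')^q` divides the coordinate `v`
  of the tube of `e'` in every level**; `ugB_ne_zero`; `minpoly_splitWB`, `gen_splitWB`,
  `splitWB_mem_FKs`;
* `InnerHypB` : the hypotheses on a family of levels `L'` of the inner sub-annulus (index map,
  second coordinate, thickness, gauge, `hT`, `hRK`); `smallB`;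
* **`sheetHypB : SheetHyp L' (splitWB M q g g') (1 : B)`** (along `β₂`) = the input `H` of
  `SplitNode.nodeOutW` once `InnerHypB` is instantiated at `levelsInB`.
-/

set_option autoImplicit false
set_option linter.unusedSectionVars false
set_option linter.style.haveILetI false
set_option synthInstance.maxHeartbeats 400000
set_option maxHeartbeats 1600000

noncomputable section

/- S36 build-time patch: file-local shortcut instances. They only shorten instance search;
each is the instance that the search finds anyway (reducible, same terms after unfolding). -/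
local instance (priority := 100000) Fermat.Agent.BR3.FastInst.instAlgFullC_SplitNode_SheetB
    {k : Type*} [Field k] (N : ℕ) :
    Algebra k ↥(ModularCurve.modularFunctionFieldFullC k N) := inferInstance
local instance (priority := 100000) Fermat.Agent.BR3.FastInst.instFieldFullC_SplitNode_SheetB
    {k : Type*} [Field k] (N : ℕ) :
    Field ↥(ModularCurve.modularFunctionFieldFullC k N) := inferInstance
local instance (priority := 100000) Fermat.Agent.BR3.FastInst.instAlgLaurent_SplitNode_SheetB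
    {k : Type*} [Field k] : Algebra k (LaurentSeries k) := inferInstance


namespace Fermat.Agent.BR3.SplitNode.SheetB

open Polynomial ModularCurve AlgebraicCurve IsLocalRing
open Fermat.Agent.X0 Fermat.Agent.Val Fermat.Agent.Red Fermat.Agent.BR.Kron
open Fermat.Agent.BR.Centre Fermat.Agent.BR.SS Fermat.Agent.BR.Refine
open Fermat.Agent.BR.S0 Fermat.Agent.BR.S0.RedModular Fermat.Agent.BR.S0.PointDict
open Fermat.Agent.BR.Inst.AnnulusInstFinal Fermat.Agent.BR.Inst.NodeInstFinal
open Fermat.Agent.BR.Inst.Levels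
open Fermat.Agent.BR.Inst.FKCover Fermat.Agent.BR.Final
open Fermat.Agent.BR3.FibreProd Fermat.Agent.BR3.VertTaylor Fermat.Agent.BR3.VertTaylorAt
open Fermat.Agent.BR3.CircleN
open Fermat.Agent.BR3.EtaleLocal Fermat.Agent.BR3.SplitLevel Fermat.Agent.BR3.SplitLevels
open Fermat.Agent.BR3.SplitBranch Fermat.Agent.BR3.SplitNodeChart Fermat.Agent.BR3.SplitCoord
open Fermat.Agent.BR3.SplitHoriz Fermat.Agent.BR3.CoverSmooth Fermat.Agent.Good.Bridge
open Fermat.Agent.BR3.SplitModular Fermat.Agent.BR3.SplitCoordTw Fermat.Agent.BR3.HeckePoly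
open Fermat.Agent.BR3.SplitCompsCInf Fermat.Agent.BR3.SSParam Fermat.Agent.BR3.SplitModularTw
open Fermat.Agent.BR3.HeckePolyB Fermat.Agent.BR3.SplitCompsModB
open Fermat.Agent.BR3.VertAll Fermat.Agent.BR3.VertAllParam Fermat.Agent.BR3.VertAllLevels
open Fermat.Agent.BR3.HeckePolyDescent Fermat.Agent.BR3.HeckePolyModel
open Fermat.Agent.BR3.ThickOneFinal Fermat.Agent.BR3.ThickOneUnit Fermat.Agent.BR3.VertTube
open Fermat.Agent.BR3.VertSheet Fermat.Agent.BR3.VertFinal Fermat.Agent.BR.S0.ThickFinal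
open Fermat.Agent.BR.Circle Fermat.Agent.BR.ResGen

/-! ### Abstract: the second coordinate -/

section Abstract

attribute [local instance] NodeLevel.isLocal NodeLevel.noeth NodeLevel.intClosed

variable {K F k : Type*} [Field K] [Field F] [Field k] [Algebra K F]
  {Ft₁ Ft₂ : Type*} [Field Ft₁] [Algebra k Ft₁] [Field Ft₂] [Algebra k Ft₂]
  {A : ValuationSubring K} {T : Set (Place K F)} {ι : Type*}
  {π : A →+* k} {O₁ O₂ : ValuationSubring F} {res₁ : O₁ →+* Ft₁} {res₂ : O₂ →+* Ft₂}
  {Q₁ : Place k Ft₁} {Q₂ : Place k Ft₂}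

/-- the branch data of a component do not see the order of the two coordinates -/
theorem branchComp_swap {L : AnnulusLevels A T ι} (X : BranchComp π O₁ res₁ Q₁ L) :
    BranchComp π O₁ res₁ Q₁ L.swap where
  le := X.le
  branch := X.branch
  const_mem := X.const_mem
  const := X.const

/-- **The second coordinate of a thickness-one tube at a finite level** (the `v`-twin of
`SplitCoord.coord_mul_inv_mem`): `x y z` in the level `i` with `x * y = κ • z`, `z` a unit of the
level, `|κ| = |thick|`, `x` a unit on the first component and `y` a unit on the second one. Then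
`y` DIVIDES `v` in the level. -/
theorem coordV_mul_inv_mem {L : AnnulusLevels A T ι} (X₁ : BranchComp π O₁ res₁ Q₁ L)
    (X₂ : BranchComp π O₂ res₂ Q₂ L) (hπ0 : ∀ a : A, A.valuation (a : K) < 1 → π a = 0)
    (hu₁ : L.u ∉ O₁.nonunits) (hv₂ : L.v ∉ O₂.nonunits) (i : ι) {x y z : F} {κ : K}
    (hx : x ∈ (L.level i).R) (hy : y ∈ (L.level i).R) (hz : z ∈ (L.level i).R)
    (hzu : IsUnit (⟨z, hz⟩ : (L.level i).R)) (hxyz : x * y = κ • z)
    (hκ : A.valuation κ = A.valuation L.thick)
    (hx₁ : x ∉ O₁.nonunits) (hy₂ : y ∉ O₂.nonunits) :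
    L.v * y⁻¹ ∈ (L.level i).R :=
  coord_mul_inv_mem (L := L.swap) (branchComp_swap X₂) (branchComp_swap X₁) hπ0 hv₂ hu₁ i
    (x := y) (y := x) (z := z) hy hx hz hzu (by rw [mul_comm]; exact hxyz) hκ hy₂ hx₁

variable {T' : Set (Place K F)} {ι' : Type*} (L' : AnnulusLevels A T' ι')

/-- **The small parameter `κ / c^(n+1)` when `c` divides the SECOND coordinate**: if
`|κ| = |thick'|^(n+1)` (`thick'` the thickness of `L'`) it lies in the maximal ideal of every
level of `L'`: `κ / c^(n+1) = (κ / thick'^(n+1)) · u'^(n+1) (v' c⁻¹)^(n+1) ε₀⁻¹^(n+1)`. -/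
theorem small_mem_of_v (i' : ι') {c : F} {κ : K} {n : ℕ} (hc0 : c ≠ 0)
    (hvc : L'.v * c⁻¹ ∈ (L'.level i').R) (hκK : κ ∈ (L'.level i').K')
    (hκ : A.valuation κ = A.valuation L'.thick ^ (n + 1)) :
    ∃ h : algebraMap K F κ * (c ^ (n + 1))⁻¹ ∈ (L'.level i').R,
      (⟨algebraMap K F κ * (c ^ (n + 1))⁻¹, h⟩ : (L'.level i').R) ∈
        maximalIdeal (L'.level i').R := by
  have ht0 : L'.thick ≠ 0 := L'.thick_ne
  have htn : L'.thick ^ (n + 1) ≠ 0 := pow_ne_zero _ ht0
  have hd : A.valuation (κ / L'.thick ^ (n + 1)) = 1 := by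
    rw [map_div₀, map_pow, hκ]
    exact div_self (pow_ne_zero _ ((_root_.map_ne_zero _).mpr ht0))
  have hdA : κ / L'.thick ^ (n + 1) ∈ A := (ValuationSubring.valuation_le_one_iff _ _).mp hd.le
  have hdK : κ / L'.thick ^ (n + 1) ∈ (L'.level i').K' :=
    (L'.level i').K'.div_mem hκK ((L'.level i').K'.pow_mem (L'.level i').thick_mem _)
  have hd' : algebraMap K F (κ / L'.thick ^ (n + 1)) ∈ (L'.level i').R :=
    (L'.level i').const_mem _ hdK hdA
  have htF : algebraMap K F L'.thick ≠ 0 := (_root_.map_ne_zero _).mpr ht0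
  have hε0 : L'.ε₀ ≠ 0 := by
    intro h0
    have h1 : L'.ε₀⁻¹ * L'.ε₀ = 0 := by rw [h0, mul_zero]
    -- `ε₀⁻¹ ε₀ = 1` in the level unless `ε₀ = 0`; but then `u v = 0`
    have huv := L'.uv
    rw [h0, smul_zero] at huv
    have hu0 : L'.u ≠ 0 := by
      intro hu
      have := (L'.level i').u_notMem_p2
      apply this
      have e0 : (⟨L'.u, (L'.level i').u_mem⟩ : (L'.level i').R) = 0 := Subtype.ext hu
      rw [e0]
      exact Ideal.zero_mem _
    have hv0 : L'.v ≠ 0 := by
      intro hv
      have := (L'.level i').v_notMem_p1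
      apply this
      have e0 : (⟨L'.v, (L'.level i').v_mem⟩ : (L'.level i').R) = 0 := Subtype.ext hv
      rw [e0]
      exact Ideal.zero_mem _
    exact (mul_ne_zero hu0 hv0) huv
  have key : algebraMap K F κ * (c ^ (n + 1))⁻¹ =
      algebraMap K F (κ / L'.thick ^ (n + 1)) *
        (L'.u ^ (n + 1) * ((L'.v * c⁻¹) ^ (n + 1) * L'.ε₀⁻¹ ^ (n + 1))) := by
    have h1 : L'.u ^ (n + 1) * ((L'.v * c⁻¹) ^ (n + 1) * L'.ε₀⁻¹ ^ (n + 1)) =
        (L'.u * L'.v) ^ (n + 1) * (c⁻¹ ^ (n + 1) * L'.ε₀⁻¹ ^ (n + 1)) := by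
      rw [mul_pow, mul_pow]
      ring
    rw [h1, L'.uv, Algebra.smul_def, mul_pow, map_div₀, map_pow, inv_pow, inv_pow]
    field_simp
  have hu : (⟨L'.u, (L'.level i').u_mem⟩ : (L'.level i').R) ∈ maximalIdeal (L'.level i').R :=
    uR_mem_maximalIdeal (L'.level i')
  have hmem : algebraMap K F κ * (c ^ (n + 1))⁻¹ ∈ (L'.level i').R := by
    rw [key]
    exact (L'.level i').R.mul_mem hd' ((L'.level i').R.mul_mem
      ((L'.level i').R.pow_mem (L'.level i').u_mem _)
      ((L'.level i').R.mul_mem ((L'.level i').R.pow_mem hvc _)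
        ((L'.level i').R.pow_mem (L'.level i').ε₀_inv_mem _)))
  refine ⟨hmem, ?_⟩
  have e2 : (⟨algebraMap K F κ * (c ^ (n + 1))⁻¹, hmem⟩ : (L'.level i').R) =
      ⟨algebraMap K F (κ / L'.thick ^ (n + 1)), hd'⟩ *
        (⟨L'.u, (L'.level i').u_mem⟩ ^ (n + 1) *
          (⟨L'.v * c⁻¹, hvc⟩ ^ (n + 1) * ⟨L'.ε₀⁻¹, (L'.level i').ε₀_inv_mem⟩ ^ (n + 1))) :=
    Subtype.ext key
  rw [e2]
  refine Ideal.mul_mem_left _ _ (Ideal.mul_mem_right _ _ ?_)
  rw [pow_succ]
  exact Ideal.mul_mem_left _ _ hu

end Abstract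


/-! ### The modular frame, along `β₂` -/

section Modular

variable {M q : ℕ} [NeZero M] [hq : Fact q.Prime]

/-- the cover along `β₂` -/
local instance instAlgBeta2SB : Algebra (Fb (M * q)) (Fb (M * q * q)) :=
  algebraAlong (beta2 M q)

local instance instTowerBeta2SB : IsScalarTower Kb (Fb (M * q)) (Fb (M * q * q)) :=
  isScalarTower_along (beta2 M q)

local instance instFiniteBeta2SB : Module.Finite (Fb (M * q)) (Fb (M * q * q)) :=
  Fermat.Agent.Hecke.finiteAlong_heckeBetaBar (M * q) q

variable (B : ValuationSubring Kb) (hB : B.LiesOverPrime q) (hqM : ¬ q ∣ M)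
  [IsAlgClosed (ResidueField B)] [CharP (ResidueField B) q]
  (hne : Nonempty (Crossing (chartDataModular B hB hqM)))
  (e e' : Crossing (chartDataModular B hB hqM))

local notation "kB" => ResidueField B

/-- (shortcut instance) -/
local instance (priority := 100000) instAlgebraFtMShortcutSheetB :
    Algebra kB (modularFunctionFieldFullC kB M) :=
  inferInstance

variable (h2 : nuTwo M = 0) (h3 : nuThree M = 0) {g₀ g g' g'' : Fb M}
  (P : IsSSParam B hB hqM e g g' g'') (P' : IsSSParam B hB hqM e' g' g₀ g)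

include P in
/-- **The Kronecker shape of `PBt M q g` with all the data in the base level of the tube of
`e'`** (`x₁ = α g'`, `x₂ = α g''`, `y = β g`). -/
theorem exists_kronecker_levelB [PerfectField (ResidueField B)] :
    ∃ Ψ₁ : (Fb (M * q))[X],
      PBt M q g =
        (X ^ q - C (heckeAlphaBar Kb M q g'')) * (X - C ((heckeAlphaBar Kb M q g') ^ q)) +
          C ((q : ℕ) : Fb (M * q)) * Ψ₁ ∧
      (∀ k, Ψ₁.coeff k ∈
        ((annulusLevels_modular_final B hB hqM hne e').level (∅ : Finset Kb)).R) ∧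
      heckeBetaBar Kb M q g ∈
        ((annulusLevels_modular_final B hB hqM hne e').level (∅ : Finset Kb)).R ∧
      heckeAlphaBar Kb M q g' ∈
        ((annulusLevels_modular_final B hB hqM hne e').level (∅ : Finset Kb)).R ∧
      heckeAlphaBar Kb M q g'' ∈
        ((annulusLevels_modular_final B hB hqM hne e').level (∅ : Finset Kb)).R := by
  obtain ⟨Ψ₁, hΨ, hP⟩ := exists_kronecker_PBt_q B hB hqM P.hg P.hg' P.hg'' P.untwist P.twist
  exact ⟨Ψ₁, hP, fun k => CQ0_le_level B hB hqM hne e' (hΨ k),
    beta_mem_level B hB hqM hne e' P.hg, alpha_mem_level B hB hqM hne e' P.hg',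
    alpha_mem_level B hB hqM hne e' P.hg''⟩

include P' in
/-- `u_{g'} = β g - (α g')^q ≠ 0` -/
theorem ugB_ne_zero : heckeBetaBar Kb M q g - heckeAlphaBar Kb M q g' ^ q ≠ 0 :=
  ne_zero_of_notMem_nonunits (ug_notMem_nonunits B hB hqM e' P')

include P' h2 h3 in
set_option maxHeartbeats 4000000 in
/-- **`u_{g'} = β g - (α g')^q` divides the coordinate `v` of the tube of `e'` in every level**
(thickness one; the `v`-twin of `SplitModularTw.u_mul_vg_inv_mem`). -/
theorem v_mul_ug_inv_mem (S : Finset Kb) :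
    (annulusLevels_modular_final B hB hqM hne e').v *
        (heckeBetaBar Kb M q g - heckeAlphaBar Kb M q g' ^ q)⁻¹ ∈
      ((annulusLevels_modular_final B hB hqM hne e').level S).R := by
  obtain ⟨Ψ₁, hΨR, hP, hz, hR⟩ := exists_frameData B hB hqM hne e' h2 h3 P'
  have hαR := alpha_mem_level B hB hqM hne e' P'.hg
  have hβ'R := beta_mem_level B hB hqM hne e' P'.hg'
  have hβ''R := beta_mem_level B hB hqM hne e' P'.hg''
  have hx : heckeAlphaBar Kb M q g' - (heckeBetaBar Kb M q g₀) ^ q ∈
      ((annulusLevels_modular_final B hB hqM hne e').level (∅ : Finset Kb)).R :=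
    sub_mem hαR (pow_mem hβ'R q)
  have hy : heckeBetaBar Kb M q g - (heckeAlphaBar Kb M q g') ^ q ∈
      ((annulusLevels_modular_final B hB hqM hne e').level (∅ : Finset Kb)).R :=
    sub_mem hβ''R (pow_mem hαR q)
  have hxyz := vg_mul_ug (M := M) (q := q) hqM hP
  have X := branchDataN_final B hB hqM hne e'
  refine level_mono B hB hqM hne e' (Finset.empty_subset S) ?_
  exact coordV_mul_inv_mem (branchComp_src X) (branchComp_tgt X) residue_eq_zero_of_lt
    (u_notMem_nonunits_of_unif (branchComp_src X) (res_eq_zero_of_nonunits _)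
      residue_eq_zero_of_lt X.v_src X.unif₁)
    (v_notMem_nonunits_of_unif (branchComp_tgt X) (res_eq_zero_of_nonunits _)
      residue_eq_zero_of_lt X.u_tgt X.unif₂) ∅ hx hy hz hR hxyz
    (valuation_thick_levels_final B hB hqM h2 h3 hne e').symm
    (vg_notMem_nonunits B hB hqM e' P') (ug_notMem_nonunits B hB hqM e' P')

include P P' h2 h3 hne in
/-- **The minimal polynomial of `W_b = splitWB M q g g'`** over `F̄_{Mq}` (along `β₂`) is the scaled
vertical polynomial of `PBt M q g` at `β g`. -/
theorem minpoly_splitWB :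
    minpoly (Fb (M * q)) (splitWB M q g g') =
      vertScaledAt (PBt M q g) q (heckeBetaBar Kb M q g)
        (-(heckeBetaBar Kb M q g - heckeAlphaBar Kb M q g' ^ q)) :=
  (minpoly_Ug_div_beta2 hqM (Ug_notMem_range_alpha2' B hB hqM hne e h2 h3 P) g'
    (ugB_ne_zero B hB hqM e' P')).1

include P P' h2 h3 hne in
/-- `W_b` generates `F̄_{Mq²}` over `F̄_{Mq}` (along `β₂`) -/
theorem gen_splitWB (z : Fb (M * q * q)) :
    ∃ p : (Fb (M * q))[X], aeval (splitWB M q g g') p = z := by
  have htop : IntermediateField.adjoin (Fb (M * q)) {splitWB M q g g'} = ⊤ :=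
    (minpoly_Ug_div_beta2 hqM (Ug_notMem_range_alpha2' B hB hqM hne e h2 h3 P) g'
      (ugB_ne_zero B hB hqM e' P')).2
  have halg : IsAlgebraic (Fb (M * q)) (splitWB M q g g') :=
    (Algebra.IsIntegral.isIntegral (R := Fb (M * q)) (splitWB M q g g')).isAlgebraic
  have h1 : z ∈ (IntermediateField.adjoin (Fb (M * q)) {splitWB M q g g'}).toSubalgebra := by
    rw [htop]
    exact Algebra.mem_top
  rw [IntermediateField.adjoin_simple_toSubalgebra_of_isAlgebraic halg,
    Algebra.adjoin_singleton_eq_range_aeval] at h1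
  exact h1

include P in
/-- `W_b` lies in the function field of every field of constants containing `K₀` -/
theorem splitWB_mem_FKs {E : Subfield Kb} (hE : K0 q ≤ E) :
    splitWB M q g g' ∈ FKs (M * q * q) E := by
  have hg := mem_FKs_of_mem_CMod B P.hg hE
  have hg' := mem_FKs_of_mem_CMod B P.hg' hE
  have hα : heckeAlphaBar Kb M q g ∈ FKs (M * q) E := heckeAlpha_mem_FKs M q E hg
  have hβ : heckeBetaBar Kb M q g ∈ FKs (M * q) E := heckeBeta_mem_FKs M q E hg
  have hα' : heckeAlphaBar Kb M q g' ∈ FKs (M * q) E := heckeAlpha_mem_FKs M q E hg'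
  refine div_mem (sub_mem (heckeBeta_mem_FKs (M * q) q E hβ) (heckeAlpha_mem_FKs (M * q) q E hα)) ?_
  exact heckeBeta_mem_FKs (M * q) q E (sub_mem hβ (pow_mem hα' q))

/-! ### The split sheet over the inner sub-annulus -/

section Inner

attribute [local instance] NodeLevel.isLocal NodeLevel.noeth NodeLevel.intClosed

variable {T' : Set (Place Kb (Fb (M * q)))} {ι' : Type*}

/-- **The hypotheses on a family of levels `L'` of the INNER sub-annulus `{|thick| < |u| < |ρ|}`
of the tube of `e'`** (coordinates `(ρ⁻¹ • u, v)`, thickness `ρ⁻¹ thick`), over main's levels: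
only what the split sheet along `β₂` needs. Satisfied by the levels of the inner node of `S'ref_b`
(`SplitNode.levelsInB`, `ρ = gaugeB e'`). -/
structure InnerHypB (L' : AnnulusLevels B T' ι') (idx : ι' → Finset Kb) (ρ : Kb) : Prop where
  le : ∀ i', ((annulusLevels_modular_final B hB hqM hne e').level (idx i')).R ≤ (L'.level i').R
  v_eq : L'.v = (annulusLevels_modular_final B hB hqM hne e').v
  thick_eq : L'.thick = ρ⁻¹ * (annulusLevels_modular_final B hB hqM hne e').thick
  gauge : B.valuation ρ ^ (q + 1) =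
    B.valuation (annulusLevels_modular_final B hB hqM hne e').thick ^ q
  hT : ∀ i' (P : Place Kb (Fb (M * q))), CentredAt B (L'.level i').R P → P ∈ T'
  hRK : ∀ i', ∀ y ∈ (L'.level i').R, y ∈ FKs (M * q) (L'.level i').K'

variable {B hB hqM hne e e'}
variable {L' : AnnulusLevels B T' ι'} {idx : ι' → Finset Kb} {ρ : Kb}
  (H : InnerHypB B hB hqM hne e' L' idx ρ) (hK0 : ∀ i', K0 q ≤ (L'.level i').K')

include H h2 h3 in
/-- `|q| = |thick'|^(q+1)` for the thickness of the inner levels -/
theorem valuation_q_eq : B.valuation ((q : ℕ) : Kb) = B.valuation L'.thick ^ (q + 1) := by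
  have hth := valuation_thick_levels_final B hB hqM h2 h3 hne e'
  have ht0 : B.valuation (annulusLevels_modular_final B hB hqM hne e').thick ≠ 0 :=
    (_root_.map_ne_zero _).mpr (annulusLevels_modular_final B hB hqM hne e').thick_ne
  have hρ0 : B.valuation ρ ≠ 0 := by
    intro h0
    have := H.gauge
    rw [h0, zero_pow (Nat.succ_ne_zero q)] at this
    exact pow_ne_zero _ ht0 this.symm
  rw [H.thick_eq, map_mul, map_inv₀, mul_pow, inv_pow, H.gauge, pow_succ, ← hth]
  field_simp

include H P' h2 h3 in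
set_option maxHeartbeats 4000000 in
/-- **The small parameter `t = q / (-u_{g'})^(q+1)` of the split sheet along `β₂`** lies in the
maximal ideal of every level of the inner sub-annulus. -/
theorem smallB (i' : ι') :
    ∃ h : ((q : ℕ) : Fb (M * q)) *
        ((-(heckeBetaBar Kb M q g - heckeAlphaBar Kb M q g' ^ q)) ^ (q + 1))⁻¹ ∈ (L'.level i').R,
      (⟨((q : ℕ) : Fb (M * q)) *
        ((-(heckeBetaBar Kb M q g - heckeAlphaBar Kb M q g' ^ q)) ^ (q + 1))⁻¹, h⟩ :
        (L'.level i').R) ∈ maximalIdeal (L'.level i').R := by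
  have hy0 := ugB_ne_zero B hB hqM e' P'
  have hc0 : -(heckeBetaBar Kb M q g - heckeAlphaBar Kb M q g' ^ q) ≠ 0 := neg_ne_zero.mpr hy0
  have hvc : L'.v * (-(heckeBetaBar Kb M q g - heckeAlphaBar Kb M q g' ^ q))⁻¹ ∈
      (L'.level i').R := by
    have h1 : L'.v * (-(heckeBetaBar Kb M q g - heckeAlphaBar Kb M q g' ^ q))⁻¹ =
        -((annulusLevels_modular_final B hB hqM hne e').v *
          (heckeBetaBar Kb M q g - heckeAlphaBar Kb M q g' ^ q)⁻¹) := by
      rw [H.v_eq, inv_neg, mul_neg]
    rw [h1]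
    exact neg_mem (H.le i' (v_mul_ug_inv_mem B hB hqM hne e' h2 h3 P' (idx i')))
  have key := small_mem_of_v L' i' (n := q) hc0 hvc (natCast_mem _ q)
    (valuation_q_eq h2 h3 H)
  rw [map_natCast] at key
  exact key

include H hK0 P P' h2 h3 in
set_option maxHeartbeats 4000000 in
/-- **(N3-INST) The hypotheses of the split sheet of `X₀(M q²) → X₀(M q)` (along `β₂`) over the
inner sub-annulus of the crossing `e'`**: `W_b = splitWB M q g g' = U_g / β₂ (β g - (α g')^q) ≡ 1`. -/
theorem sheetHypB [PerfectField (ResidueField B)] : SheetHyp L' (splitWB M q g g') (1 : B) := by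
  obtain ⟨Ψ₁, hP, hΨR, hβR, hα'R, hα''R⟩ := exists_kronecker_levelB B hB hqM hne e e' P
  have hmono : ∀ i', ((annulusLevels_modular_final B hB hqM hne e').level (∅ : Finset Kb)).R ≤
      (L'.level i').R := fun i' =>
    le_trans (level_mono B hB hqM hne e' (Finset.empty_subset (idx i'))) (H.le i')
  exact sheetHypAt_frame L' hq.out
    (fun i' => hmono i' hα'R) (fun i' => hmono i' hα''R) (fun i' => hmono i' hβR)
    (fun i' n => hmono i' (hΨR n))
    (ugB_ne_zero B hB hqM e' P') (smallB h2 h3 P' H) hP (PBt_monic g) (PBt_natDegree hqM g)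
    (PBt_eval_beta g) (minpoly_splitWB B hB hqM hne e e' h2 h3 P P')
    (gen_splitWB B hB hqM hne e e' h2 h3 P P')
    (fun i' y hy => heckeBeta_mem_FKs (M * q) q _ (H.hRK i' y hy))
    (fun i' => splitWB_mem_FKs B hB hqM e P (hK0 i')) H.hT

end Inner

end Modular

end Fermat.Agent.BR3.SplitNode.SheetB
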