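import Mathlib
import Fermat.Agent.BR3.SplitNode.SheetB
import Fermat.Agent.BR3.SplitModularRefB

/-!
# Program C (S36), node (N3-INST): the split sheet `H_W` over the levels of the inner node of
`S'ref_b` (second engine)

`SheetB.sheetHypB` (the split sheet of the node `nW e` along `β₂` over ANY family of levels of the
inner sub-annulus satisfying `SheetB.InnerHypB`) at helper16's levels `SplitNode.levelsInB` of the
inner node of `S'ref_b` at the crossing `e'`, with the fields of `SplitModularRefB` (helper19):

* `innerHypB_levelsInB'` : `SheetB.InnerHypB … (levelsInB B hB hqM h2 h3 e') (idxInBVal … e')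
  (gaugeB q B hB hqM e')`;
* **`sheetHypB_levelsInB'`** : `SheetHyp (levelsInB B hB hqM h2 h3 e') (splitWB M q g g') 1` under
  the three local instances of the cover along `β₂` — the literal shape of helper5's hypothesis
  `SDD.Modular.HWM` — from `P : IsSSParam e g g' g''` (any crossing `e`) and
  `P' : IsSSParam e' g' g₀ g` (for the chain of `zePackM … e` : `e' = Fr e`, `P = .P`, `P' = .P'`).
-/

set_option autoImplicit false
set_option linter.unusedSectionVars false
set_option linter.style.haveILetI false
set_option synthInstance.maxHeartbeats 400000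

noncomputable section

namespace Fermat.Agent.BR3.SplitNode.SheetBLevels

open ModularCurve AlgebraicCurve IsLocalRing
open Fermat.Agent.Red Fermat.Agent.Val Fermat.Agent.X0 Fermat.Agent.Hecke
open Fermat.Agent.BR.SS Fermat.Agent.BR.Refine
open Fermat.Agent.BR.S0 Fermat.Agent.BR.S0.PointDict
open Fermat.Agent.BR.S0.RedModular Fermat.Agent.BR.Final Fermat.Agent.BR.Inst.AnnulusInstFinal
open Fermat.Agent.BR2.SetupOfData Fermat.Agent.BR3.CircleN Fermat.Agent.BR3.SRef
open Fermat.Agent.BR3.SRef.Modular Fermat.Agent.BR3.SDD.Modular Fermat.Agent.BR3.SubAnnChart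
open Fermat.Agent.BR3.SplitLevels Fermat.Agent.BR3.CoverSmooth
open Fermat.Agent.BR3.FibreProd Fermat.Agent.BR3.SSParam
open Fermat.Agent.BR3.SplitCompsModB Fermat.Agent.BR3.SplitModularRefB
open Fermat.Agent.BR3.SplitNode

local notation "Kb" => AlgebraicClosure ℚ

variable {M q : ℕ} [NeZero M] [hq : Fact q.Prime]
variable (B : ValuationSubring (AlgebraicClosure ℚ)) (hB : B.LiesOverPrime q) (hqM : ¬ q ∣ M)
variable [IsAlgClosed (ResidueField B)]

/-- (shortcut instance) -/
local instance (priority := 100000) instAlgebraFtMShortcutSBL :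
    Algebra (IsLocalRing.ResidueField B)
      (modularFunctionFieldFullC (IsLocalRing.ResidueField B) M) :=
  inferInstance

variable (h2 : nuTwo M = 0) (h3 : nuThree M = 0)
  (e e' : Crossing (chartDataModular B hB hqM))

set_option maxHeartbeats 4000000 in
/-- the levels of the inner node of `S'ref_b` at `e'` satisfy `SheetB.InnerHypB` -/
theorem innerHypB_levelsInB' :
    SheetB.InnerHypB B hB hqM (nonempty_crossing (DtF B hB hqM)) e'
      (levelsInB B hB hqM h2 h3 e') (idxInBVal B hB hqM h2 h3 e') (gaugeB q B hB hqM e') where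
  le i' := levelsInB_le B hB hqM h2 h3 e' i'
  v_eq := levelsInB_v B hB hqM h2 h3 e'
  thick_eq := levelsInB_thick' B hB hqM h2 h3 e'
  gauge := levelsInB_gauge B hB hqM h2 h3 e'
  hT i' P hP := levelsInB_hT B hB hqM h2 h3 e' i' P hP
  hRK i' := levelsInB_hRK B hB hqM h2 h3 e' i'

variable [CharP (ResidueField B) q]
  {g₀ g g' g'' : Fb M} (P : IsSSParam B hB hqM e g g' g'') (P' : IsSSParam B hB hqM e' g' g₀ g)

include P P' in
set_option maxHeartbeats 4000000 in
/-- **(N3-INST) `H_W`: the hypotheses of the split sheet of the node `nW` over the levels of the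
inner node of `S'ref_b` at `e'`**, along `β₂` (the literal shape of `SDD.Modular.HWM`). -/
theorem sheetHypB_levelsInB' :
    letI := algebraAlong (beta2 M q)
    haveI := isScalarTower_along (beta2 M q)
    haveI : Module.Finite (Fb (M * q)) (Fb (M * q * q)) :=
      Fermat.Agent.Hecke.finiteAlong_heckeBetaBar (M * q) q
    SheetHyp (levelsInB B hB hqM h2 h3 e') (splitWB M q g g') (1 : B) :=
  SheetB.sheetHypB h2 h3 P P' (innerHypB_levelsInB' B hB hqM h2 h3 e')
    (fun i' => hK0_levelsInB B hB hqM h2 h3 e' i')

end Fermat.Agent.BR3.SplitNode.SheetBLevels
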